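import Fermat.Agent.S48.AnD.Degree
import Fermat.Agent.S48.AnD.Model
import Fermat.Agent.ES.An.BC
import Fermat.Agent.ES.An.DictCusp
import Fermat.Agent.S28.LD

/-! # S48/AnD-BC : base change `FB D = F_ℚ̄ → FC D = F_ℂ`, the two models (port of `ES/An/BC`). -/

set_option autoImplicit false

open AlgebraicCurve ModularCurve UpperHalfPlane
open scoped MatrixGroups IntermediateField Manifold ModularForm

namespace Fermat.Agent.S48.AnD

open Fermat.Agent.S24 Fermat.Agent.ES.An

noncomputable section

variable (D : Datum)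

theorem coeffMap_mem_EC {x : LaurentSeries Kb} (hx : x ∈ D.EB) : coeffMap iotaC x ∈ D.EC := by
  induction hx using IntermediateField.adjoin_induction with
  | mem y hy => exact IntermediateField.subset_adjoin ℂ _ ⟨y, hy, rfl⟩
  | algebraMap c =>
    rw [BC_coeffMap_algebraMap]
    exact D.EC.algebraMap_mem _
  | add x y _ _ hx hy => rw [map_add]; exact add_mem hx hy
  | inv x _ hx => rw [map_inv₀]; exact inv_mem hx
  | mul x y _ _ hx hy => rw [map_mul]; exact mul_mem hx hy

/-- base change of functions. -/
def bc : FB D →+* FC D where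
  toFun f := ⟨coeffMap iotaC (f : LaurentSeries Kb), coeffMap_mem_EC D f.2⟩
  map_one' := Subtype.ext (map_one _)
  map_mul' _ _ := Subtype.ext (map_mul _ _ _)
  map_zero' := Subtype.ext (map_zero _)
  map_add' _ _ := Subtype.ext (map_add _ _ _)

theorem coe_bc (f : FB D) : (bc D f : LaurentSeries ℂ) = coeffMap iotaC (f : LaurentSeries Kb) := rfl

theorem bc_algebraMap (c : Kb) :
    bc D (algebraMap Kb (FB D) c) = algebraMap ℂ (FC D) (algebraMap Kb ℂ c) := by
  apply Subtype.ext
  rw [coe_bc]
  exact BC_coeffMap_algebraMap c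

theorem bc_genB (x : D.S) : bc D (genB D x) = genC D x := rfl

theorem bc_jB : bc D (jB D) = jC D := rfl

theorem transcendental_jB : Transcendental Kb (jB D) := by
  have h1 : Transcendental Kb (jN 1) := transcendental_jN 1
  have h2 : Transcendental Kb ((jN 1 : FN 1) : LaurentSeries Kb) :=
    (transcendental_algebraMap_iff (R := Kb) (S := FN 1) (A := LaurentSeries Kb)
      (a := jN 1) (FaithfulSMul.algebraMap_injective _ _)).mpr h1
  exact (transcendental_algebraMap_iff (R := Kb) (S := FB D) (A := LaurentSeries Kb)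
      (a := jB D) (FaithfulSMul.algebraMap_injective _ _)).mp h2

/-- linear independence is preserved by base change. -/
theorem linearIndependent_bc {ι : Type*} (y : ι → FB D) (hy : LinearIndependent Kb⟮jB D⟯ y) :
    LinearIndependent ℂ⟮jC D⟯ (fun i => bc D (y i)) := by
  have h1 := (BC_linearIndependent_coe_iff D.EB (jB D) y).1 hy
  have h2 := S28.linearIndependent_coeffMap iotaC _ _ h1
  exact (BC_linearIndependent_coe_iff D.EC (jC D) _).2 h2

theorem rank_FB_le : Module.rank Kb⟮jB D⟯ (FB D) ≤ (Nat.card (XD D) : ℕ) := by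
  have hfd := finiteDimensional_FC D
  refine rank_le fun s hs => ?_
  have h1 := (linearIndependent_bc D _ hs).fintype_card_le_finrank
  rw [finrank_FC] at h1
  simpa using h1

theorem finiteDimensional_FB : FiniteDimensional Kb⟮jB D⟯ (FB D) := by
  have hfree : Module.Free Kb⟮jB D⟯ (FB D) := Module.Free.of_divisionRing _ _
  rw [FiniteDimensional, ← Module.rank_lt_aleph0_iff]
  exact lt_of_le_of_lt (rank_FB_le D) (Cardinal.natCast_lt_aleph0)

/-- the embeddings `FB D → ℂ((t))` indexed by the cosets. -/
def embB (a : XD D) : FB D →ₐ[Kb] LaurentSeries ℂ :=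
  { ((Degree.emb D a : FC D →+* LaurentSeries ℂ)).comp (bc D) with
    commutes' := fun c => by
      show Degree.emb D a (bc D (algebraMap Kb (FB D) c)) = _
      rw [bc_algebraMap, AlgHom.commutes, algebraMap_laurent_eq (K := Kb) c] }

theorem embB_apply (a : XD D) (f : FB D) : embB D a f = Degree.emb D a (bc D f) := rfl

theorem embB_injective : Function.Injective (embB D) := by
  intro a b hab
  apply Degree.emb_injective D
  apply algHom_ext_FC D
  intro x
  rw [← bc_genB, ← embB_apply, ← embB_apply, hab]

theorem finrank_FB : Module.finrank Kb⟮jB D⟯ (FB D) = Nat.card (XD D) := by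
  have hfd := finiteDimensional_FB D
  apply le_antisymm
  · have h := rank_FB_le D
    rw [← Module.finrank_eq_rank] at h
    exact_mod_cast h
  · exact Packages.card_le_finrank_of_embeddings (jB D) (embB D) (embB_injective D)
      (fun a b => by rw [embB_apply, embB_apply, bc_jB, Degree.emb_jC, Degree.emb_jC])

theorem mem_EB_of_coeffMap_mem (x : LaurentSeries Kb) (hx : coeffMap iotaC x ∈ D.EC) :
    x ∈ D.EB := by
  by_contra hxF
  have hfd1 := finiteDimensional_FB D
  have hfd2 := finiteDimensional_FC D
  have hfree : Module.Free Kb⟮jB D⟯ (FB D) := Module.Free.of_divisionRing _ _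
  let b := Module.finBasis Kb⟮jB D⟯ (FB D)
  have hb : LinearIndependent Kb⟮((jB D : FB D) : LaurentSeries Kb)⟯
      (fun i => ((b i : FB D) : LaurentSeries Kb)) :=
    (BC_linearIndependent_coe_iff D.EB (jB D) b).1 b.linearIndependent
  have hle : Kb⟮((jB D : FB D) : LaurentSeries Kb)⟯ ≤ D.EB := by
    rw [IntermediateField.adjoin_le_iff]
    rintro _ rfl
    exact (jB D).2
  have hsub : ∀ z : LaurentSeries Kb, z ∈ Submodule.span Kb⟮((jB D : FB D) : LaurentSeries Kb)⟯
      (Set.range fun i => ((b i : FB D) : LaurentSeries Kb)) → z ∈ D.EB := by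
    intro z hmem
    induction hmem using Submodule.span_induction with
    | mem z hz =>
      obtain ⟨i, rfl⟩ := hz
      exact (b i).2
    | zero => exact zero_mem _
    | add z w _ _ hz hw => exact add_mem hz hw
    | smul c z _ hz => exact mul_mem (hle c.2) hz
  have hspan : x ∉ Submodule.span Kb⟮((jB D : FB D) : LaurentSeries Kb)⟯
      (Set.range fun i => ((b i : FB D) : LaurentSeries Kb)) := fun hmem => hxF (hsub x hmem)
  have hy := hb.option hspan
  have hz := S28.linearIndependent_coeffMap iotaC _ _ hy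
  have hj : coeffMap iotaC ((jB D : FB D) : LaurentSeries Kb) = ((jC D : FC D) : LaurentSeries ℂ) :=
    rfl
  rw [hj] at hz
  have hmem : ∀ o : Option (Fin (Module.finrank Kb⟮jB D⟯ (FB D))),
      coeffMap iotaC (Option.casesOn' o x fun i => ((b i : FB D) : LaurentSeries Kb))
        ∈ D.EC := by
    intro o
    cases o with
    | none => exact hx
    | some i => exact coeffMap_mem_EC D (b i).2
  have hz' : LinearIndependent ℂ⟮jC D⟯ (fun o => (⟨_, hmem o⟩ : FC D)) :=
    (BC_linearIndependent_coe_iff _ (jC D) _).2 hz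
  have hcard := hz'.fintype_card_le_finrank
  rw [finrank_FC, Fintype.card_option, Fintype.card_fin, finrank_FB] at hcard
  omega

theorem exists_root_of_bc (m : ℕ) (hm : 0 < m) (f : FB D) (h : FC D) (hfh : bc D f = h ^ m) :
    ∃ h₀ : FB D, f = h₀ ^ m := by
  have h1 : coeffMap iotaC (f : LaurentSeries Kb) = (h : LaurentSeries ℂ) ^ m :=
    congrArg Subtype.val hfh
  have hord : (m : ℤ) ∣ (f : LaurentSeries Kb).order := by
    rw [← BC_order_coeffMap iotaC, h1, HahnSeries.order_pow, nsmul_eq_mul]
    exact dvd_mul_right _ _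
  obtain ⟨w, hw⟩ := BC_exists_root m hm (f : LaurentSeries Kb) hord
  have h2 : (coeffMap iotaC w) ^ m = (h : LaurentSeries ℂ) ^ m := by rw [← map_pow, hw, h1]
  have h3 : coeffMap iotaC w ∈ D.EC := by
    rcases eq_or_ne (h : LaurentSeries ℂ) 0 with h0 | h0
    · rw [h0, zero_pow hm.ne', pow_eq_zero_iff hm.ne'] at h2
      rw [h2]
      exact zero_mem _
    · have h4 : (coeffMap iotaC w / (h : LaurentSeries ℂ)) ^ m = 1 := by
        rw [div_pow, h2, div_self (pow_ne_zero _ h0)]
      obtain ⟨c, hc⟩ := BC_const_of_pow_eq_one (K := ℂ) hm h4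
      have h5 : coeffMap iotaC w = algebraMap ℂ (LaurentSeries ℂ) c * (h : LaurentSeries ℂ) := by
        rw [hc, div_mul_cancel₀ _ h0]
      rw [h5]
      exact mul_mem (IntermediateField.algebraMap_mem _ _) h.2
  exact ⟨⟨w, mem_EB_of_coeffMap_mem D w h3⟩, Subtype.ext hw.symm⟩

/-- the model over `ℂ`. -/
def modelC : Model D ℂ (FC D) where
  φ := (toMer D : FC D →+* Mer)
  φ_alg c := (toMer D).commutes c
  j := jC D
  φ_j := toMer_jC D
  tr := transcendental_jC D
  fin := finiteDimensional_FC D
  deg := finrank_FC D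
  inv := cmp_toMer D
  sep := mem_of_cmp D
  cusp := cmp_toMer_mem_MerCusp D

/-- the model over `ℚ̄`. -/
def modelB : Model D Kb (FB D) where
  φ := (toMer D : FC D →+* Mer).comp (bc D)
  φ_alg c := by
    rw [RingHom.comp_apply, bc_algebraMap]
    exact (toMer D).commutes _
  j := jB D
  φ_j := by
    rw [RingHom.comp_apply, bc_jB]
    exact toMer_jC D
  tr := transcendental_jB D
  fin := finiteDimensional_FB D
  deg := finrank_FB D
  inv γ f := cmp_toMer D γ (bc D f)
  sep g hg := by
    apply mem_of_cmp D g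
    have h1 : (cmp (slp g)).comp (toMer D) = toMer D := by
      apply algHom_ext_FC D
      intro x
      rw [← bc_genB]
      exact hg (genB D x)
    intro f
    exact AlgHom.congr_fun h1 f
  cusp g f := cmp_toMer_mem_MerCusp D g (bc D f)

end

end Fermat.Agent.S48.AnD
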