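import Fermat.Agent.S48.AnD.MF

/-! # ES/An-Char : pure algebra of characters of elements of `Mer` (no analysis).

`exists_isChar_of_pow`: `(cmp γ w / w) ^ m = 1` in the field `Mer ⊇ ℂ`, so it is one of the `m` roots of `X^m - 1` in `ℂ`;
multiplicativity from `cmp_mul` and `ℂ`-linearity of `cmp`. -/

set_option autoImplicit false

open AlgebraicCurve ModularCurve UpperHalfPlane
open scoped MatrixGroups IntermediateField Manifold ModularForm

namespace Fermat.Agent.S48.AnD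

open Fermat.Agent.S24 Fermat.Agent.ES.An

noncomputable section

variable {D : Datum}

namespace Char

/-- two `m`-th roots of the same element differ by a constant (auxiliary form). -/
theorem exists_const_aux (m : ℕ) (hm : 0 < m) {w w' : Mer} (hw : w ≠ 0)
    (h : w' ^ m = w ^ m) : ∃ c : ℂ, c ^ m = 1 ∧ w' = algebraMap ℂ Mer c * w := by
  have hu1 : (w' / w) ^ m = 1 := by
    rw [div_pow, h, div_self (pow_ne_zero _ hw)]
  have hu : IsIntegral ℂ (w' / w) :=
    ⟨Polynomial.X ^ m - Polynomial.C 1, Polynomial.monic_X_pow_sub_C 1 hm.ne', by simp [hu1]⟩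
  obtain ⟨c, hc⟩ := minpoly.mem_range_of_degree_eq_one ℂ (w' / w)
    (IsAlgClosed.degree_eq_one_of_irreducible ℂ (minpoly.irreducible hu))
  refine ⟨c, ?_, ?_⟩
  · apply (algebraMap ℂ Mer).injective
    rw [map_pow, hc, hu1, map_one]
  · rw [hc, div_mul_cancel₀ _ hw]

theorem smul_left_cancel {w : Mer} (hw : w ≠ 0) {c c' : ℂ} (h : c • w = c' • w) : c = c' := by
  rw [Algebra.smul_def, Algebra.smul_def] at h
  exact (algebraMap ℂ Mer).injective (mul_right_cancel₀ hw h)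

end Char

theorem exists_isChar_of_pow (m : ℕ) (hm : 0 < m) (w : Mer) (hw : w ≠ 0)
    (hinv : ∀ γ : D.Γ,
      cmp (slp (γ : SL(2, ℤ))) (w ^ m) = w ^ m) :
    ∃ χ : D.Γ →* ℂˣ, IsChar w χ ∧ χ ^ m = 1 := by
  have h1 : ∀ γ : D.Γ, ∃ c : ℂ, c ^ m = 1 ∧
      cmp (slp (γ : SL(2, ℤ))) w = algebraMap ℂ Mer c * w := fun γ =>
    Char.exists_const_aux m hm hw (by rw [← map_pow, hinv γ])
  choose c hc1 hc2 using h1
  have hc0 : ∀ γ, c γ ≠ 0 := by
    intro γ h0
    have := hc1 γ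
    rw [h0, zero_pow hm.ne'] at this
    exact zero_ne_one this
  have hmul : ∀ γ γ', c (γ * γ') = c γ * c γ' := by
    intro γ γ'
    apply Char.smul_left_cancel hw
    rw [Algebra.smul_def, ← hc2 (γ * γ'), Subgroup.coe_mul, map_mul, cmp_mul, hc2 γ, map_mul,
      AlgHom.commutes, hc2 γ', Algebra.smul_def, map_mul]
    ring
  refine ⟨MonoidHom.mk' (fun γ => Units.mk0 (c γ) (hc0 γ)) (fun γ γ' => ?_), fun γ => ?_, ?_⟩
  · ext
    simp [hmul]
  · rw [Algebra.smul_def]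
    exact hc2 γ
  · ext γ
    simp [hc1]

theorem IsChar.unique {w : Mer} (hw : w ≠ 0) {χ χ' : D.Γ →* ℂˣ}
    (h : IsChar w χ) (h' : IsChar w χ') : χ = χ' := by
  ext γ
  exact Char.smul_left_cancel hw ((h γ).symm.trans (h' γ))

theorem IsChar.mul {w w' : Mer} {χ χ' : D.Γ →* ℂˣ}
    (h : IsChar w χ) (h' : IsChar w' χ') : IsChar (w * w') (χ * χ') := by
  intro γ
  rw [map_mul, h γ, h' γ, smul_mul_smul_comm]
  simp

theorem IsChar.inv {w : Mer} {χ : D.Γ →* ℂˣ}
    (h : IsChar w χ) : IsChar w⁻¹ χ⁻¹ := by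
  intro γ
  rw [map_inv₀, h γ, Algebra.smul_def, Algebra.smul_def, mul_inv, ← map_inv₀]
  simp

theorem IsChar.pow {w : Mer} {χ : D.Γ →* ℂˣ}
    (h : IsChar w χ) (n : ℕ) : IsChar (w ^ n) (χ ^ n) := by
  intro γ
  rw [map_pow, h γ, smul_pow]
  simp

theorem IsChar.const_mul {w : Mer} {χ : D.Γ →* ℂˣ}
    (h : IsChar w χ) (c : ℂ) : IsChar (algebraMap ℂ Mer c * w) χ := by
  intro γ
  rw [map_mul, AlgHom.commutes, h γ, mul_smul_comm]

theorem isChar_one_iff {w : Mer} :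
    IsChar w (1 : D.Γ →* ℂˣ) ↔
      ∀ γ : D.Γ, cmp (slp (γ : SL(2, ℤ))) w = w := by
  simp [IsChar]

/-- two `m`-th roots of the same element differ by a constant. -/
theorem exists_const_of_pow_eq (m : ℕ) (hm : 0 < m) {w w' : Mer} (hw : w ≠ 0)
    (h : w' ^ m = w ^ m) : ∃ c : ℂ, c ^ m = 1 ∧ w' = algebraMap ℂ Mer c * w :=
  Char.exists_const_aux m hm hw h

/-- `Γ₀(D)` is finitely generated (`SL₂(ℤ) = ⟨S, T⟩`, finite index, Schreier:
`Subgroup.fg_of_index_ne_zero`), so there are finitely many characters of exponent `m`. -/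
theorem finite_chars (m : ℕ) (hm : 0 < m) :
    {χ : D.Γ →* ℂˣ | χ ^ m = 1}.Finite := by
  classical
  have hSL : Group.FG SL(2, ℤ) :=
    ⟨⟨{ModularGroup.S, ModularGroup.T}, by
      rw [Finset.coe_insert, Finset.coe_singleton]
      exact SpecialLinearGroup.SL2Z_generators⟩⟩
  have hG : Group.FG D.Γ := inferInstance
  obtain ⟨S, hS⟩ := hG.out
  have : NeZero m := ⟨hm.ne'⟩
  let Φ : {χ : D.Γ →* ℂˣ | χ ^ m = 1} → (S → rootsOfUnity m ℂ) :=
    fun χ s => ⟨χ.1 s, by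
      rw [mem_rootsOfUnity]
      exact DFunLike.congr_fun χ.2 (s : D.Γ)⟩
  have hΦ : Function.Injective Φ := by
    intro χ χ' h
    apply Subtype.ext
    apply MonoidHom.eq_of_eqOn_dense hS
    intro s hs
    have := congrArg Subtype.val (congrFun h ⟨s, hs⟩)
    exact this
  exact Set.finite_coe_iff.1 (Finite.of_injective Φ hΦ)

end

end Fermat.Agent.S48.AnD
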