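import Fermat.Agent.ES.An.Basic
import Fermat.Agent.ES.An.MkMF

/-!
# S48 / An1 : the analytic side (port of `ES/An`) for an arbitrary congruence subgroup `Γ ∋ -1, T`

All level-agnostic material (`Mer`, `cmp`, `tay`, `lau`, `HasLau`, `MerCusp`, `DivBy`, ...) is reused from `ES/An`.
A `Datum` packages a subgroup `Γ` of `SL₂(ℤ)` together with a set `S ⊆ ℚ̄((q))` of `q`-expansions which generate the
function field of `Γ \ ℍ*`.
-/

set_option autoImplicit false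

open AlgebraicCurve ModularCurve UpperHalfPlane
open scoped MatrixGroups IntermediateField Manifold ModularForm

namespace Fermat.Agent.S48.AnD

open Fermat.Agent.S24 Fermat.Agent.ES.An

noncomputable section

/-- `Γ` as a subgroup of `GL₂(ℝ)`. -/
abbrev GG (Γ : Subgroup SL(2, ℤ)) : Subgroup (GL (Fin 2) ℝ) :=
  Subgroup.map (Matrix.SpecialLinearGroup.mapGL ℝ) Γ

/-- `F` is the underlying function of a modular form of weight `k` on `Γ`. -/
def IsMF (Γ : Subgroup SL(2, ℤ)) (k : ℤ) (F : ℍ → ℂ) : Prop :=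
  ∃ f : ModularForm (GG Γ) k, ⇑f = F

/-- `u` is a quotient of two modular forms of the same weight on `Γ`. -/
def IsMFr (Γ : Subgroup SL(2, ℤ)) (u : Mer) : Prop :=
  ∃ (k : ℤ) (A B : Hol), IsMF Γ k (A : ℍ → ℂ) ∧ IsMF Γ k (B : ℍ → ℂ) ∧ B ≠ 0 ∧
    u = algebraMap Hol Mer A / algebraMap Hol Mer B

/-- A congruence subgroup `Γ ∋ -1, T` of level `h` with generators `S ⊆ ℚ̄((q))` of its function field. -/
structure Datum where
  /-- the group -/
  Γ : Subgroup SL(2, ℤ)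
  /-- the level -/
  h : ℕ
  h_ne : NeZero h
  lvl : CongruenceSubgroup.Gamma h ≤ Γ
  neg_mem : (-1 : SL(2, ℤ)) ∈ Γ
  T_mem : ModularGroup.T ∈ Γ
  /-- the generators -/
  S : Set (LaurentSeries Kb)
  j_mem : jSer 1 ∈ S
  an : ∀ x ∈ S, ∃ u : Mer, HasLau 1 u (coeffMap iotaC x) ∧ IsMFr Γ u
  sep : ∀ g : SL(2, ℤ),
    (∀ x ∈ S, ∀ u : Mer, HasLau 1 u (coeffMap iotaC x) → cmp (slp g) u = u) → g ∈ Γ
  gal : ∀ σ : Kb ≃ₐ[ℚ] Kb, ∀ x ∈ S,
    coeffMap (σ : Kb →+* Kb) x ∈ IntermediateField.adjoin Kb S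

attribute [instance] Datum.h_ne

/-- the function field over `ℚ̄`, inside `ℚ̄((q))`. -/
def Datum.EB (D : Datum) : IntermediateField Kb (LaurentSeries Kb) := IntermediateField.adjoin Kb D.S

/-- the function field over `ℂ`, inside `ℂ((q))`. -/
def Datum.EC (D : Datum) : IntermediateField ℂ (LaurentSeries ℂ) :=
  IntermediateField.adjoin ℂ (⇑(coeffMap iotaC) '' D.S)

/-- the function field over `ℂ`, as a type. -/
abbrev FC (D : Datum) : Type := ↥D.EC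

/-- the function field over `ℚ̄`, as a type. -/
abbrev FB (D : Datum) : Type := ↥D.EB

/-- the coset space `SL₂(ℤ) / Γ`. -/
abbrev XD (D : Datum) : Type := SL(2, ℤ) ⧸ D.Γ

/-- a generator, in `FC D`. -/
def genC (D : Datum) (x : D.S) : FC D :=
  ⟨coeffMap iotaC x.1, IntermediateField.subset_adjoin ℂ _ ⟨x.1, x.2, rfl⟩⟩

/-- a generator, in `FB D`. -/
def genB (D : Datum) (x : D.S) : FB D := ⟨x.1, IntermediateField.subset_adjoin Kb _ x.2⟩

/-- `j` in `FC D`. -/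
def jC (D : Datum) : FC D := genC D ⟨jSer 1, D.j_mem⟩

/-- `j` in `FB D`. -/
def jB (D : Datum) : FB D := genB D ⟨jSer 1, D.j_mem⟩

/-- `w ∘ γ = χ(γ) w` for all `γ ∈ Γ`. -/
def IsChar {Γ : Subgroup SL(2, ℤ)} (w : Mer) (χ : Γ →* ℂˣ) : Prop :=
  ∀ γ : Γ, cmp (slp (γ : SL(2, ℤ))) w = ((χ γ : ℂˣ) : ℂ) • w

/-- unitary characters of `Γ` killing `±1`, elliptic and parabolic elements. -/
def IsGood {Γ : Subgroup SL(2, ℤ)} (ψ : Γ →* ℂˣ) : Prop :=
  (∀ γ, ‖((ψ γ : ℂˣ) : ℂ)‖ = 1) ∧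
    ∀ γ : Γ, |((γ : SL(2, ℤ)) : Matrix (Fin 2) (Fin 2) ℤ).trace| ≤ 2 → ψ γ = 1

end

end Fermat.Agent.S48.AnD
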