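import Fermat.Agent.S48.AnD.DescA
import Fermat.Agent.ES.An.DescLA
import Fermat.Agent.S48.AnD.BC
import Fermat.Agent.ES.An.FormalRoot
import Fermat.Agent.S17.FF.Riemann
import Fermat.Agent.S17.Curve.Base

/-! # ES/An-Desc : descent of classes from `ℂ` to `ℚ̄`.

Let `f ∈ D_m(F_ℂ)`, `F = FC D ⊆ ℂ((q))`.
1. The `q`-order is an ordFun on `F`, so `m ∣` `q`-order of `f` (`S24.FF.exists_place_of_ordFun`); hence `f = u ^ m` with
   `u ∈ ℂ((q))` (formal `m`-th root: leading coefficient + Hensel/binomial).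
2. For `g ∈ D_m` and a divisor bound put
   `W(g) := {w ∈ ℂ((q)) | ∃ h ∈ F, w ^ m = g * h ^ m ∧ (h = 0 ∨ ∀ P, 0 ≤ P.ord (g * h ^ m) + m * r * max (-P.ord j) 0)}`.
   `W(f) = u • L(D)`, `D = (div f)/m + r (j)_∞`, is a finite dimensional `ℂ`-subspace (`S17.FF.finiteDimensional_LSp`,
   instance `S17.FF.IsFF ℂ (FC D)` from `transcendental_jC`, `finiteDimensional_FC`), nonzero for `r` large
   (`S17.FF.exists_bound` = Riemann's inequality, `degree_poleDiv`).  `W(g)` depends only on the class of `g` mod `m`-th powers,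
   and `σ (W f) = W (σ f)` (`ord_smul`, `σ j = j`).  By `exists_finite_reps` the set of conjugates of `W(f)` is finite.
3. `exists_algebraic_vector` (with `ι = ℤ`, coefficients): `0 ≠ w ∈ W(f)` with algebraic coefficients, `w = coeffMap iotaC w₀`.
   `w ^ m = f * h ^ m ∈ F`, so `w₀ ^ m ∈ FB D` by `mem_FN_of_coeffMap_mem`. -/

set_option autoImplicit false
set_option linter.unusedSectionVars false

open AlgebraicCurve ModularCurve UpperHalfPlane
open scoped MatrixGroups IntermediateField Manifold ModularForm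

namespace Fermat.Agent.S48.AnD

open Fermat.Agent.S24 Fermat.Agent.ES.An

noncomputable section

variable {D : Datum}

namespace Desc

/-- every algebraic number is in the image of `iotaC`. -/
theorem exists_iotaC_eq (z : ℂ) (hz : IsAlgebraic ℚ z) : ∃ y : Kb, iotaC y = z := by
  let _ : Algebra ℚ Kb := AlgebraicClosure.instAlgebra ℚ
  let φ : Kb →ₐ[ℚ] ℂ := IsAlgClosed.lift
  have hsp : ((minpoly ℚ z).map (algebraMap ℚ Kb)).Splits := IsAlgClosed.splits _
  have h0 : (minpoly ℚ z).map (algebraMap ℚ Kb) ≠ 0 :=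
    Polynomial.map_ne_zero (minpoly.ne_zero hz.isIntegral)
  have hroot : (((minpoly ℚ z).map (algebraMap ℚ Kb)).map (φ : Kb →+* ℂ)).IsRoot z := by
    rw [Polynomial.map_map, φ.comp_algebraMap, Polynomial.IsRoot.def, Polynomial.eval_map_algebraMap,
      minpoly.aeval]
  obtain ⟨y, hy⟩ := hsp.mem_range_of_isRoot h0 hroot
  exact ⟨y, hy⟩

/-- `m`-th roots of unity in `ℂ((q))` are constants. -/
theorem exists_const_of_pow_eq_one (m : ℕ) (hm : 0 < m) (x : LaurentSeries ℂ) (hx : x ^ m = 1) :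
    ∃ c : ℂ, c ≠ 0 ∧ x = algebraMap ℂ (LaurentSeries ℂ) c := by
  have : NeZero m := ⟨hm.ne'⟩
  have hζ := Complex.isPrimitiveRoot_exp m hm.ne'
  have hζ' := hζ.map_of_injective (f := algebraMap ℂ (LaurentSeries ℂ)) (algebraMap ℂ (LaurentSeries ℂ)).injective
  obtain ⟨i, -, hi⟩ := hζ'.eq_pow_of_pow_eq_one hx
  refine ⟨Complex.exp (2 * Real.pi * Complex.I / m) ^ i, pow_ne_zero _ (Complex.exp_ne_zero _), ?_⟩
  rw [map_pow, hi]

/-- the set of `m`-th roots of elements of the class of `g`, with poles bounded by `r (j)_∞`. -/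
def Wset (m r : ℕ) (g : FC D) : Set (LaurentSeries ℂ) :=
  {w | ∃ h : FC D, w ^ m = ((g * h ^ m : FC D) : LaurentSeries ℂ) ∧
    (h = 0 ∨ ∀ P : Place ℂ (FC D),
      0 ≤ P.ord (g * h ^ m) + (m : ℤ) * ((r : ℤ) * max (-P.ord (jC D)) 0))}

theorem Wset_mul_pow_subset (m r : ℕ) (g k : FC D) :
    Wset m r (g * k ^ m) ⊆ Wset m r g := by
  rintro w ⟨h, h1, h2⟩
  have e : g * k ^ m * h ^ m = g * (k * h) ^ m := by ring
  refine ⟨k * h, by rw [h1, e], ?_⟩
  rcases h2 with rfl | h2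
  · left; simp
  · right
    intro P
    rw [← e]
    exact h2 P

theorem Wset_mul_pow (m r : ℕ) (g k : FC D) (hk : k ≠ 0) :
    Wset m r (g * k ^ m) = Wset m r g := by
  refine (Wset_mul_pow_subset m r g k).antisymm ?_
  have := Wset_mul_pow_subset m r (g * k ^ m) k⁻¹
  rwa [mul_assoc, ← mul_pow, mul_inv_cancel₀ hk, one_pow, mul_one] at this

abbrev sig (σ : ℂ ≃ₐ[ℚ] ℂ) (f : FC D) : FC D := galC D σ f

theorem sig_jC (σ : ℂ ≃ₐ[ℚ] ℂ) : sig σ (jC D) = jC D := galC_jC D σ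

theorem ord_sig (σ : ℂ ≃ₐ[ℚ] ℂ) (P : Place ℂ (FC D)) (f : FC D) :
    P.ord (sig σ f) = ((galCS D σ)⁻¹ • P).ord f := by
  have h1 := SemilinearAut.ord_smul (galCS D σ)
    ((galCS D σ)⁻¹ • P) f
  rw [smul_inv_smul] at h1
  exact h1

theorem coeffMap_mem_Wset (m r : ℕ) (g : FC D) (σ : ℂ ≃ₐ[ℚ] ℂ) {w : LaurentSeries ℂ}
    (hw : w ∈ Wset m r g) : coeffMap (σ : ℂ →+* ℂ) w ∈ Wset m r (sig σ g) := by
  obtain ⟨h, h1, h2⟩ := hw
  have e : sig σ g * sig σ h ^ m = sig σ (g * h ^ m) := by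
    rw [sig, sig, sig, map_mul, map_pow]
  refine ⟨sig σ h, ?_, ?_⟩
  · rw [← map_pow, h1, e]
    rfl
  · rcases h2 with rfl | h2
    · left; simp [sig]
    · right
      intro P
      rw [e, ord_sig, ← sig_jC σ, ord_sig]
      exact h2 _

theorem image_coeffMap_Wset (m r : ℕ) (g : FC D) (σ : ℂ ≃ₐ[ℚ] ℂ) :
    coeffMap (σ : ℂ →+* ℂ) '' Wset m r g = Wset m r (sig σ g) := by
  apply Set.Subset.antisymm
  · rintro _ ⟨w, hw, rfl⟩
    exact coeffMap_mem_Wset m r g σ hw
  · intro w hw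
    refine ⟨coeffMap (σ.symm : ℂ →+* ℂ) w, ?_, ?_⟩
    · have := coeffMap_mem_Wset m r _ σ.symm hw
      have e : sig σ.symm (sig σ g) = g :=
        galC_symm_galC D σ g
      rwa [e] at this
    · rw [coeffMap_coeffMap, coeffMap_congr (g := RingHom.id ℂ)
        (RingHom.ext fun a => σ.apply_symm_apply a), coeffMap_id]

open Fermat.Agent.S17 Fermat.Agent.S17.FF Fermat.Agent.S17.FF.Riemann Fermat.Agent.S24.FF

/-- the divisor `(div f)/m + r (j)_∞`. -/
def Dd (m r : ℕ) (f : FC D) : Divisor ℂ (FC D) :=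
  (divf (K := ℂ) f).mapRange (fun z => z / (m : ℤ)) (Int.zero_ediv _) + r • poleDiv (K := ℂ) (jC D)

theorem Dd_apply (m r : ℕ) (f : FC D) (P : Place ℂ (FC D)) :
    Dd m r f P = P.ord f / (m : ℤ) + (r : ℤ) * max (-P.ord (jC D)) 0 := by
  simp [Dd, poleDiv_apply]

theorem cond_iff (m r : ℕ) (hm : 0 < m) (f h : FC D) (hf0 : f ≠ 0) (hh : h ≠ 0)
    (hf : DivBy ℂ m f) (P : Place ℂ (FC D)) :
    0 ≤ P.ord (f * h ^ m) + (m : ℤ) * ((r : ℤ) * max (-P.ord (jC D)) 0) ↔
      0 ≤ P.ord h + Dd m r f P := by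
  obtain ⟨k, hk⟩ := hf P
  have hm' : (0 : ℤ) < m := by exact_mod_cast hm
  rw [Dd_apply, P.ord_mul hf0 (pow_ne_zero _ hh), ord_pow, hk, Int.mul_ediv_cancel_left _ hm'.ne']
  have e : (m : ℤ) * k + m * P.ord h + m * ((r : ℤ) * max (-P.ord (jC D)) 0) =
      m * (P.ord h + (k + (r : ℤ) * max (-P.ord (jC D)) 0)) := by ring
  rw [e, mul_nonneg_iff_of_pos_left hm']

theorem Wset_eq (m r : ℕ) (hm : 0 < m) (f : FC D) (hf0 : f ≠ 0) (hf : DivBy ℂ m f)
    (u : LaurentSeries ℂ) (hu : u ^ m = (f : LaurentSeries ℂ)) :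
    Wset m r f = (fun h : FC D => u * (h : LaurentSeries ℂ)) '' (LSp (Dd m r f) : Set (FC D)) := by
  have hu0 : u ≠ 0 := by
    rintro rfl
    rw [zero_pow hm.ne'] at hu
    exact hf0 (Subtype.ext hu.symm)
  apply Set.Subset.antisymm
  · rintro w ⟨h, h1, h2⟩
    rcases eq_or_ne h 0 with rfl | hh
    · refine ⟨0, Submodule.zero_mem _, ?_⟩
      have : w ^ m = 0 := by rw [h1, zero_pow hm.ne', mul_zero]; rfl
      simp [pow_eq_zero_iff hm.ne' |>.mp this]
    · have h2 := h2.resolve_left hh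
      have hh' : (h : LaurentSeries ℂ) ≠ 0 := fun e => hh (Subtype.ext e)
      have h3 : (w / (u * (h : LaurentSeries ℂ))) ^ m = 1 := by
        rw [div_pow, h1, mul_pow, hu]
        exact div_self (mul_ne_zero (fun e => hf0 (Subtype.ext e)) (pow_ne_zero _ hh'))
      obtain ⟨c, hc, hc'⟩ := exists_const_of_pow_eq_one m hm _ h3
      refine ⟨c • h, Submodule.smul_mem _ _ (Or.inr fun P => (cond_iff m r hm f h hf0 hh hf P).mp (h2 P)), ?_⟩
      rw [div_eq_iff (mul_ne_zero hu0 hh')] at hc'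
      have e : ((c • h : FC D) : LaurentSeries ℂ) =
          algebraMap ℂ (LaurentSeries ℂ) c * (h : LaurentSeries ℂ) := by
        rw [Algebra.smul_def]; rfl
      rw [hc']
      show u * ((c • h : FC D) : LaurentSeries ℂ) = _
      rw [e]
      ring
  · rintro _ ⟨h, hh, rfl⟩
    refine ⟨h, ?_, ?_⟩
    · rw [mul_pow, hu]; rfl
    · rcases eq_or_ne h 0 with rfl | hh0
      · exact Or.inl rfl
      · right
        intro P
        exact (cond_iff m r hm f h hf0 hh0 hf P).mpr ((hh.resolve_left hh0) P)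

theorem degree_Dd (m r : ℕ) (hm : 0 < m) (f : FC D) (hf : DivBy ℂ m f) :
    (r : ℤ) ≤ Divisor.degree (Dd m r f) := by
  have h1 : Divisor.degree ((divf (K := ℂ) f).mapRange (fun z => z / (m : ℤ)) (Int.zero_ediv _)) = 0 := by
    have h2 : m • ((divf (K := ℂ) f).mapRange (fun z => z / (m : ℤ)) (Int.zero_ediv _)) = divf (K := ℂ) f := by
      ext P
      simp only [Finsupp.smul_apply, Finsupp.mapRange_apply, divf_apply, nsmul_eq_mul]
      exact Int.mul_ediv_cancel' (hf P)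
    have h3 := congrArg Divisor.degree h2
    rw [map_nsmul, degree_divf, nsmul_eq_mul] at h3
    have hm' : (m : ℤ) ≠ 0 := by exact_mod_cast hm.ne'
    exact (mul_eq_zero.mp h3).resolve_left hm'
  have h4 : (1 : ℤ) ≤ Divisor.degree (poleDiv (K := ℂ) (jC D)) := by
    refine le_trans ?_ (LBasic.le_degree (poleDiv_nonneg (jC D)) (infP D))
    have hjc : ((jC D : FC D) : LaurentSeries ℂ) = coeffEmb ℂ jq := coe_jC D
    have hj0 : jC D ≠ 0 := by
      intro h
      have h1 := congrArg (fun x : FC D => (x : LaurentSeries ℂ).coeff (-1)) h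
      simp only [hjc] at h1
      simp at h1
    rw [poleDiv_apply, infP_ord hj0, hjc, Base.order_coeffEmb_jq]
    norm_num
  rw [Dd, map_add, h1, zero_add, map_nsmul, nsmul_eq_mul]
  nlinarith

/-- coefficient vector. -/
def cf (w : LaurentSeries ℂ) : ℤ → ℂ := fun n => w.coeff n

theorem coe_smul_FC (c : ℂ) (h : FC D) : ((c • h : FC D) : LaurentSeries ℂ) =
    algebraMap ℂ (LaurentSeries ℂ) c * (h : LaurentSeries ℂ) := by
  rw [Algebra.smul_def]; rfl

/-- `h ↦` coefficients of `u * h`. -/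
def Phi (u : LaurentSeries ℂ) : FC D →ₗ[ℂ] (ℤ → ℂ) where
  toFun h := cf (u * (h : LaurentSeries ℂ))
  map_add' a b := by
    funext n
    show (u * ((a : LaurentSeries ℂ) + (b : LaurentSeries ℂ))).coeff n = _
    rw [mul_add]; rfl
  map_smul' c a := by
    funext n
    show (u * ((c • a : FC D) : LaurentSeries ℂ)).coeff n = c * (u * (a : LaurentSeries ℂ)).coeff n
    rw [coe_smul_FC, mul_left_comm, algebraMap_laurentSeries_eq_single, HahnSeries.coeff_single_mul,
      sub_zero]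

theorem cf_injective : Function.Injective cf := by
  intro a b h
  ext n
  exact congrFun h n

/-- a Laurent series with algebraic coefficients comes from `ℚ̄((q))`. -/
theorem exists_coeffMap_eq (w : LaurentSeries ℂ) (hw : ∀ n, IsAlgebraic ℚ (w.coeff n)) :
    ∃ w₀ : LaurentSeries Kb, coeffMap iotaC w₀ = w := by
  choose y hy using fun n => exists_iotaC_eq (w.coeff n) (hw n)
  have hsupp : Function.support y = Function.support w.coeff := by
    ext n
    simp only [Function.mem_support, ne_eq, ← hy n, map_eq_zero]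
  refine ⟨⟨y, by rw [hsupp]; exact w.isPWO_support'⟩, ?_⟩
  ext n
  exact hy n

end Desc

open AnD.Desc Fermat.Agent.S17 Fermat.Agent.S17.FF Fermat.Agent.S17.FF.Riemann Fermat.Agent.S24.FF

theorem descent (m : ℕ) (hm : 0 < m) (f : FC D) (hf0 : f ≠ 0) (hf : DivBy ℂ m f) :
    ∃ (f' : FB D) (h : FC D), h ≠ 0 ∧ bc D f' = f * h ^ m := by
  classical
  -- the formal root `u`
  have hf0' : (f : LaurentSeries ℂ) ≠ 0 := fun e => hf0 (Subtype.ext e)
  have hord : (m : ℤ) ∣ (f : LaurentSeries ℂ).order := by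
    rw [← infP_ord hf0]; exact hf _
  obtain ⟨u, hu⟩ := exists_pow_eq_laurentSeries m hm _ hf0' hord
  have hu0 : u ≠ 0 := by
    rintro rfl
    rw [zero_pow hm.ne'] at hu
    exact hf0' hu.symm
  -- choice of `r`
  obtain ⟨γ, hγ⟩ := exists_bound ℂ (FC D)
  set r := (γ + 1).toNat with hr
  have hell : 0 < ell (Dd m r f) := by
    have h1 := hγ (Dd m r f)
    have h2 := degree_Dd m r hm f hf
    have h3 : γ + 1 ≤ r := Int.self_le_toNat _
    omega
  obtain ⟨z, hz0, hz⟩ := exists_ne_zero_mem_of_ell_pos hell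
  -- the space `V`
  let V : Submodule ℂ (ℤ → ℂ) := (LSp (Dd m r f)).map (Phi u)
  have hVset : (V : Set (ℤ → ℂ)) = cf '' Wset m r f := by
    rw [Wset_eq m r hm f hf0 hf u hu, Set.image_image]
    rfl
  have hPhi : ∀ h : FC D, Phi u h = 0 → h = 0 := by
    intro h hh
    have h1 : u * (h : LaurentSeries ℂ) = 0 := cf_injective hh
    exact Subtype.ext ((mul_eq_zero.mp h1).resolve_left hu0)
  have hV : V ≠ ⊥ := by
    intro hbot
    have h1 : Phi u z ∈ V := ⟨z, hz, rfl⟩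
    rw [hbot, Submodule.mem_bot] at h1
    exact hz0 (hPhi z h1)
  obtain ⟨S, hS⟩ := exists_finite_reps m hm f hf0 hf
  have hfin : (Set.range fun σ : ℂ ≃+* ℂ =>
      (fun v : ℤ → ℂ => fun i => σ (v i)) '' (V : Set (ℤ → ℂ))).Finite := by
    refine (S.finite_toSet.image (fun s => cf '' Wset m r s)).subset ?_
    rintro _ ⟨σ, rfl⟩
    let σ' : ℂ ≃ₐ[ℚ] ℂ := AlgEquiv.ofRingEquiv (f := σ) (fun q => by simp)
    obtain ⟨s, hs, h, hh, e⟩ := hS σ'
    refine ⟨s, hs, ?_⟩
    show cf '' Wset m r s = (fun v : ℤ → ℂ => fun i => σ (v i)) '' (V : Set (ℤ → ℂ))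
    rw [← Wset_mul_pow m r s h hh, ← e, ← image_coeffMap_Wset, hVset, Set.image_image,
      Set.image_image]
    rfl
  obtain ⟨v, hvV, hv0, hvalg⟩ := exists_algebraic_vector V hV hfin
  obtain ⟨h, hh, rfl⟩ := hvV
  have hh0 : h ≠ 0 := by
    rintro rfl
    exact hv0 (map_zero _)
  obtain ⟨w₀, hw₀⟩ := exists_coeffMap_eq (u * (h : LaurentSeries ℂ)) hvalg
  have hpow : coeffMap iotaC (w₀ ^ m) = ((f * h ^ m : FC D) : LaurentSeries ℂ) := by
    rw [map_pow, hw₀, mul_pow, hu]; rfl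
  have hmem : w₀ ^ m ∈ D.EB := by
    apply mem_EB_of_coeffMap_mem
    rw [hpow]
    exact (f * h ^ m).2
  exact ⟨⟨w₀ ^ m, hmem⟩, h, hh0, Subtype.ext hpow⟩

end

end Fermat.Agent.S48.AnD
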