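import Fermat.Agent.S48.AnD.BC
import Fermat.Agent.S17.Curve.Base

/-! # S48/AnD-GalC : the coefficientwise action of `Aut(ℂ/ℚ)` on `FC D`, the cusp `∞`, `IsFF`. -/

set_option autoImplicit false

open AlgebraicCurve ModularCurve UpperHalfPlane
open scoped MatrixGroups IntermediateField Manifold ModularForm

namespace Fermat.Agent.S48.AnD

open Fermat.Agent.S24 Fermat.Agent.ES.An

noncomputable section

instance instIsScalarTowerQKbC : IsScalarTower ℚ Kb ℂ :=
  IsScalarTower.of_algebraMap_eq' (Subsingleton.elim _ _)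

/-- an automorphism of `ℂ` restricts to `ℚ̄`. -/
theorem exists_restrict (σ : ℂ ≃ₐ[ℚ] ℂ) : ∃ τ : Kb ≃ₐ[ℚ] Kb, ∀ y : Kb, σ (iotaC y) = iotaC (τ y) := by
  have hcl : IsAlgClosure ℚ Kb :=
    (inferInstance : @IsAlgClosure ℚ (AlgebraicClosure ℚ) _ _ (AlgebraicClosure.instAlgebra ℚ) _)
  have : Normal ℚ Kb := IsAlgClosure.normal ℚ Kb
  exact ⟨σ.restrictNormal Kb, fun y => (σ.restrictNormal_commutes Kb y).symm⟩

variable (D : Datum)

theorem coeffMap_gal_mem_EB (τ : Kb ≃ₐ[ℚ] Kb) {x : LaurentSeries Kb} (hx : x ∈ D.EB) :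
    coeffMap (τ : Kb →+* Kb) x ∈ D.EB := by
  induction hx using IntermediateField.adjoin_induction with
  | mem y hy => exact D.gal τ y hy
  | algebraMap c =>
    rw [coeffMap_algebraMap]
    exact IntermediateField.algebraMap_mem _ _
  | add x y _ _ hx hy => rw [map_add]; exact add_mem hx hy
  | inv x _ hx => rw [map_inv₀]; exact inv_mem hx
  | mul x y _ _ hx hy => rw [map_mul]; exact mul_mem hx hy

theorem coeffMap_aut_mem_EC (σ : ℂ ≃ₐ[ℚ] ℂ) {x : LaurentSeries ℂ} (hx : x ∈ D.EC) :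
    coeffMap (σ : ℂ →+* ℂ) x ∈ D.EC := by
  induction hx using IntermediateField.adjoin_induction with
  | mem y hy =>
    obtain ⟨z, hz, rfl⟩ := hy
    obtain ⟨τ, hτ⟩ := exists_restrict σ
    have e : coeffMap (σ : ℂ →+* ℂ) (coeffMap iotaC z) = coeffMap iotaC (coeffMap (τ : Kb →+* Kb) z) := by
      rw [coeffMap_coeffMap, coeffMap_coeffMap]
      exact coeffMap_congr (RingHom.ext fun y => hτ y) z
    rw [e]
    exact coeffMap_mem_EC D (D.gal τ z hz)
  | algebraMap c =>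
    rw [coeffMap_algebraMap]
    exact IntermediateField.algebraMap_mem _ _
  | add x y _ _ hx hy => rw [map_add]; exact add_mem hx hy
  | inv x _ hx => rw [map_inv₀]; exact inv_mem hx
  | mul x y _ _ hx hy => rw [map_mul]; exact mul_mem hx hy

/-- The coefficientwise action of `σ ∈ Aut(ℂ/ℚ)` on the field. -/
def galC (σ : ℂ ≃ₐ[ℚ] ℂ) : FC D ≃+* FC D where
  toFun x := ⟨coeffMap (σ : ℂ →+* ℂ) (x : LaurentSeries ℂ), coeffMap_aut_mem_EC D σ x.2⟩
  invFun x := ⟨coeffMap (σ.symm : ℂ →+* ℂ) (x : LaurentSeries ℂ), coeffMap_aut_mem_EC D σ.symm x.2⟩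
  left_inv x := Subtype.ext <| by
    show coeffMap (σ.symm : ℂ →+* ℂ) (coeffMap (σ : ℂ →+* ℂ) (x : LaurentSeries ℂ))
      = (x : LaurentSeries ℂ)
    rw [coeffMap_coeffMap,
      coeffMap_congr (g := RingHom.id ℂ) (RingHom.ext fun a => σ.symm_apply_apply a)
        (x : LaurentSeries ℂ),
      coeffMap_id]
  right_inv x := Subtype.ext <| by
    show coeffMap (σ : ℂ →+* ℂ) (coeffMap (σ.symm : ℂ →+* ℂ) (x : LaurentSeries ℂ))
      = (x : LaurentSeries ℂ)
    rw [coeffMap_coeffMap,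
      coeffMap_congr (g := RingHom.id ℂ) (RingHom.ext fun a => σ.apply_symm_apply a)
        (x : LaurentSeries ℂ),
      coeffMap_id]
  map_mul' x y := Subtype.ext (map_mul (coeffMap (σ : ℂ →+* ℂ)) _ _)
  map_add' x y := Subtype.ext (map_add (coeffMap (σ : ℂ →+* ℂ)) _ _)

@[simp]
theorem coe_galC (σ : ℂ ≃ₐ[ℚ] ℂ) (x : FC D) :
    ((galC D σ x : FC D) : LaurentSeries ℂ) = coeffMap (σ : ℂ →+* ℂ) (x : LaurentSeries ℂ) :=
  rfl

theorem galC_algebraMap (σ : ℂ ≃ₐ[ℚ] ℂ) (a : ℂ) :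
    galC D σ (algebraMap ℂ (FC D) a) = algebraMap ℂ (FC D) (σ a) :=
  Subtype.ext (coeffMap_algebraMap (σ : ℂ →+* ℂ) a)

/-- The action by semilinear automorphisms. -/
def galCS (σ : ℂ ≃ₐ[ℚ] ℂ) : SemilinearAut ℂ (FC D) :=
  ⟨(galC D σ, σ.toRingEquiv), fun a => galC_algebraMap D σ a⟩

theorem galCS_smul (σ : ℂ ≃ₐ[ℚ] ℂ) (f : FC D) : galCS D σ • f = galC D σ f := rfl

theorem galC_symm_galC (σ : ℂ ≃ₐ[ℚ] ℂ) (f : FC D) : galC D σ.symm (galC D σ f) = f :=
  (galC D σ).symm_apply_apply f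

theorem coe_jC : ((jC D : FC D) : LaurentSeries ℂ) = coeffEmb ℂ jq := by
  show coeffMap iotaC (jSer 1) = _
  rw [ToMerAux.coeffMap_iotaC_jSer, jSerC, qExpand_one_apply]

theorem galC_jC (σ : ℂ ≃ₐ[ℚ] ℂ) : galC D σ (jC D) = jC D := by
  apply Subtype.ext
  rw [coe_galC, coe_jC]
  exact coeffMap_coeffEmb σ _

instance isFF_FC : S17.FF.IsFF ℂ (FC D) :=
  ⟨⟨jC D, transcendental_jC D, finiteDimensional_FC D⟩⟩

instance isFF_FB : S17.FF.IsFF Kb (FB D) :=
  ⟨⟨jB D, transcendental_jB D, finiteDimensional_FB D⟩⟩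

theorem jC_ne_zero : jC D ≠ 0 := by
  intro h
  have h1 := congrArg (fun x : FC D => (x : LaurentSeries ℂ).coeff (-1)) h
  simp only [coe_jC] at h1
  simp at h1

/-- the cusp `∞`: the place given by the order of Laurent series. -/
theorem exists_infP : ∃ v : Place ℂ (FC D), ∀ f : FC D, f ≠ 0 →
    v.ord f = (f : LaurentSeries ℂ).order := by
  have hcoe : ∀ f : FC D, f ≠ 0 → (f : LaurentSeries ℂ) ≠ 0 := fun f hf h => hf (Subtype.ext h)
  obtain ⟨v, c, hc, hv⟩ := Fermat.Agent.S24.FF.exists_place_of_ordFun (K := ℂ) (F := FC D)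
    (fun f => (f : LaurentSeries ℂ).order)
    (fun f g hf hg => HahnSeries.order_mul (hcoe f hf) (hcoe g hg))
    (fun f g _ _ hfg => HahnSeries.min_order_le_order_add (hcoe _ hfg))
    (fun a ha => by
      show (algebraMap ℂ (LaurentSeries ℂ) a).order = 0
      rw [algebraMap_laurentSeries_eq_single, HahnSeries.order_single ha])
    ⟨jC D, jC_ne_zero D, by
      show ((jC D : FC D) : LaurentSeries ℂ).order ≠ 0
      rw [coe_jC, S17.Base.order_coeffEmb_jq]
      norm_num⟩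
  have h1 := hv _ (jC_ne_zero D)
  simp only [coe_jC, S17.Base.order_coeffEmb_jq] at h1
  have hc1 : c = 1 := by
    have h2 : (c : ℤ) ∣ 1 := ⟨-v.ord _, by rw [mul_neg, ← h1]; norm_num⟩
    have h3 := Int.eq_one_of_dvd_one (by positivity) h2
    exact_mod_cast h3
  refine ⟨v, fun f hf => ?_⟩
  have := hv f hf
  rw [hc1] at this
  simpa using this.symm

/-- the cusp `∞` -/
def infP : Place ℂ (FC D) := (exists_infP D).choose

variable {D}

theorem infP_ord {f : FC D} (hf : f ≠ 0) : (infP D).ord f = (f : LaurentSeries ℂ).order :=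
  (exists_infP D).choose_spec f hf

end

end Fermat.Agent.S48.AnD
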