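import Fermat.Agent.S48.AnD.CharC
import Fermat.Agent.S48.AnD.GalC

/-! # ES/An-DescA : the `Aut(ℂ)`-conjugates of `f ∈ D_m(F_ℂ)` fall into finitely many classes mod `m`-th powers.

`σ f ∈ D_m` by the Prelude's `SemilinearAut.ord_smul` (`arithmeticGalois`); it has a character of exponent `m`
(`exists_hasCharC`); there are finitely many of those (`finite_chars`); equal characters ⇒ same class
(`HasCharC.exists_eq_mul_pow`). -/

set_option autoImplicit false

open AlgebraicCurve ModularCurve UpperHalfPlane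
open scoped MatrixGroups IntermediateField Manifold ModularForm

namespace Fermat.Agent.S48.AnD

open Fermat.Agent.S24 Fermat.Agent.ES.An

noncomputable section

variable {D : Datum}

theorem divBy_arithmeticRingAut (m : ℕ) (f : FC D) (hf : DivBy ℂ m f) (σ : ℂ ≃ₐ[ℚ] ℂ) :
    DivBy ℂ m (galC D σ f) := by
  intro P
  have h := SemilinearAut.ord_smul (galCS D σ)
    ((galCS D σ)⁻¹ • P) f
  rw [smul_inv_smul] at h
  have h2 : galCS D σ • f
      = galC D σ f := rfl
  rw [← h2, h]
  exact hf _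

theorem exists_finite_reps (m : ℕ) (hm : 0 < m) (f : FC D) (hf0 : f ≠ 0) (hf : DivBy ℂ m f) :
    ∃ S : Finset (FC D), ∀ σ : ℂ ≃ₐ[ℚ] ℂ, ∃ s ∈ S, ∃ h : FC D, h ≠ 0 ∧
      galC D σ f = s * h ^ m := by
  classical
  have hfin := finite_chars (D := D) m hm
  let rep : (D.Γ →* ℂˣ) → FC D := fun χ =>
    if h : ∃ g : FC D, HasCharC D m g χ then h.choose else 1
  refine ⟨hfin.toFinset.image rep, fun σ => ?_⟩
  set g := galC D σ f with hg
  have hg0 : g ≠ 0 := by
    rw [hg, Ne, map_eq_zero]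
    exact hf0
  obtain ⟨χ, hχ, hχm⟩ := exists_hasCharC m hm g hg0 (divBy_arithmeticRingAut m f hf σ)
  have hex : ∃ g : FC D, HasCharC D m g χ := ⟨g, hχ⟩
  have hrep : rep χ = hex.choose := dif_pos hex
  have hs := hex.choose_spec
  rw [← hrep] at hs
  exact ⟨rep χ, Finset.mem_image.mpr ⟨χ, hfin.mem_toFinset.mpr hχm, rfl⟩,
    HasCharC.exists_eq_mul_pow hm hs hχ⟩

end

end Fermat.Agent.S48.AnD
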