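import Fermat.Agent.S48.AnD.Defs
import Fermat.Prelude.Thm_ModularForm_sturm_bound_of_isArithmetic

/-! # S48/AnD-MF : modular forms on `Γ` as predicates on functions (port of `S24/Sturm/Forms`, `ES/An/MkMF`). -/

set_option autoImplicit false

open AlgebraicCurve ModularCurve UpperHalfPlane ModularForm
open scoped MatrixGroups IntermediateField Manifold ModularForm

namespace Fermat.Agent.S48.AnD

open Fermat.Agent.S24 Fermat.Agent.ES.An

noncomputable section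

section closure

variable {Γ : Subgroup SL(2, ℤ)}

theorem IsMF.add {k : ℤ} {F G : ℍ → ℂ} (hF : IsMF Γ k F) (hG : IsMF Γ k G) :
    IsMF Γ k (F + G) := by
  obtain ⟨f, rfl⟩ := hF
  obtain ⟨g, rfl⟩ := hG
  exact ⟨f + g, rfl⟩

theorem IsMF.zero (k : ℤ) : IsMF Γ k 0 := ⟨0, rfl⟩

theorem IsMF.cast {k k' : ℤ} {F : ℍ → ℂ} (h : k = k') (hF : IsMF Γ k F) : IsMF Γ k' F := h ▸ hF

theorem IsMF.one : IsMF Γ 0 1 := ⟨1, one_coe_eq_one⟩

theorem IsMF.mul {k k' : ℤ} {F G : ℍ → ℂ} (hF : IsMF Γ k F) (hG : IsMF Γ k' G) :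
    IsMF Γ (k + k') (F * G) := by
  obtain ⟨f, rfl⟩ := hF
  obtain ⟨g, rfl⟩ := hG
  exact ⟨f.mul g, rfl⟩

theorem IsMF.smul {k : ℤ} {F : ℍ → ℂ} (c : ℂ) (hF : IsMF Γ k F) : IsMF Γ k (c • F) := by
  obtain ⟨f, rfl⟩ := hF
  exact ⟨c • f, rfl⟩

theorem IsMF.pow {k : ℤ} {F : ℍ → ℂ} (hF : IsMF Γ k F) (n : ℕ) : IsMF Γ (k * n) (F ^ n) := by
  induction n with
  | zero => simpa using IsMF.one
  | succ n ih =>
    rw [pow_succ]
    exact (ih.mul hF).cast (by push_cast; ring)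

theorem IsMF.prod {ι : Type*} {k : ℤ} {F : ι → ℍ → ℂ} (s : Finset ι)
    (hF : ∀ i ∈ s, IsMF Γ k (F i)) : IsMF Γ (k * s.card) (∏ i ∈ s, F i) := by
  classical
  induction s using Finset.induction_on with
  | empty => simpa using IsMF.one
  | insert a s ha ih =>
    rw [Finset.prod_insert ha, Finset.card_insert_of_notMem ha]
    exact ((hF a (Finset.mem_insert_self a s)).mul
      (ih fun i hi => hF i (Finset.mem_insert_of_mem hi))).cast (by push_cast; ring)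

theorem IsMF.sum {ι : Type*} {k : ℤ} {F : ι → ℍ → ℂ} (s : Finset ι)
    (hF : ∀ i ∈ s, IsMF Γ k (F i)) : IsMF Γ k (∑ i ∈ s, F i) := by
  classical
  induction s using Finset.induction_on with
  | empty => simpa using IsMF.zero k
  | insert a s ha ih =>
    rw [Finset.sum_insert ha]
    exact (hF a (Finset.mem_insert_self a s)).add
      (ih fun i hi => hF i (Finset.mem_insert_of_mem hi))

theorem IsMF.mdiff {k : ℤ} {F : ℍ → ℂ} (hF : IsMF Γ k F) : MDiff F := by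
  obtain ⟨f, rfl⟩ := hF
  exact f.holo'

theorem IsMF_slash_eq {k : ℤ} {F : ℍ → ℂ} (hF : IsMF Γ k F) (γ : Γ) :
    F ∣[k] (γ : SL(2, ℤ)) = F := by
  obtain ⟨f, rfl⟩ := hF
  exact f.slash_action_eq' _ ⟨γ, γ.2, rfl⟩

theorem one_mem_strictPeriods (hT : ModularGroup.T ∈ Γ) : (1 : ℝ) ∈ (GG Γ).strictPeriods := by
  have h := Subgroup.strictPeriods_eq_zmultiples_one_of_T_mem hT
  rw [h]
  exact AddSubgroup.mem_zmultiples (1 : ℝ)

theorem IsMF.periodic (hT : ModularGroup.T ∈ Γ) {k : ℤ} {F : ℍ → ℂ} (hF : IsMF Γ k F) :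
    Function.Periodic (F ∘ ofComplex) (((1 : ℕ) : ℝ) : ℂ) := by
  obtain ⟨f, rfl⟩ := hF
  have := SlashInvariantFormClass.periodic_comp_ofComplex f (one_mem_strictPeriods hT)
  simpa using this

variable [Γ.FiniteIndex]

theorem IsMF.bounded {k : ℤ} {F : ℍ → ℂ} (hF : IsMF Γ k F) : IsBoundedAtImInfty F := by
  obtain ⟨f, rfl⟩ := hF
  exact ModularFormClass.bdd_at_infty f

/-- holomorphic + `Γ`-invariant of weight `k` + bounded at all cusps `⇒` modular form. -/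
theorem isMF_of (Γ : Subgroup SL(2, ℤ)) [Γ.FiniteIndex] (k : ℤ) (F : ℍ → ℂ) (h1 : MDiff F)
    (h2 : ∀ γ : Γ, F ∣[k] (γ : SL(2, ℤ)) = F)
    (h3 : ∀ g : SL(2, ℤ), IsBoundedAtImInfty (F ∣[k] g)) : IsMF Γ k F := by
  refine ⟨{ toFun := F, slash_action_eq' := ?_, holo' := h1, bdd_at_cusps' := ?_ }, rfl⟩
  · rintro _ ⟨γ, hγ, rfl⟩
    exact h2 ⟨γ, hγ⟩
  · intro c hc
    rw [Subgroup.IsArithmetic.isCusp_iff_isCusp_SL2Z] at hc
    rw [OnePoint.isBoundedAt_iff_forall_SL2Z hc]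
    exact fun γ _ => h3 γ

theorem IsMF_bdd_slash {k : ℤ} {F : ℍ → ℂ} (hF : IsMF Γ k F) (g : SL(2, ℤ)) :
    IsBoundedAtImInfty (F ∣[k] g) := by
  obtain ⟨f, rfl⟩ := hF
  exact ModularFormClass.bdd_at_infty_slash f g

/-- restriction to a smaller group. -/
theorem IsMF.mono {Γ' : Subgroup SL(2, ℤ)} [Γ'.FiniteIndex] (h : Γ' ≤ Γ) {k : ℤ} {F : ℍ → ℂ}
    (hF : IsMF Γ k F) : IsMF Γ' k F :=
  isMF_of Γ' k F hF.mdiff (fun γ => IsMF_slash_eq hF ⟨γ, h γ.2⟩) (IsMF_bdd_slash hF)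

/-- forms of level one. -/
theorem isMF_levelOne {k : ℤ} (f : ModularForm 𝒮ℒ k) : IsMF Γ k f := by
  refine isMF_of Γ k f f.holo' (fun γ => ?_) (fun g => ModularFormClass.bdd_at_infty_slash f g)
  exact f.slash_action_eq' _ ⟨γ, rfl⟩

theorem mulH_one (τ : ℍ) : mulH 1 τ = τ := by
  apply UpperHalfPlane.ext
  rw [QDict.coe_mulH]
  simp

theorem isMF_Ad : IsMF Γ 12 (Sturm.Ad 1) := by
  have h : Sturm.Ad 1 = (⇑E₄ : ℍ → ℂ) ^ 3 := by
    funext τ
    simp only [Sturm.Ad, mulH_one, Pi.pow_apply]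
  rw [h]
  exact ((isMF_levelOne (Γ := Γ) E₄).pow 3).cast (by norm_num)

theorem isMF_Bd : IsMF Γ 12 (Sturm.Bd 1) := by
  have h : Sturm.Bd 1 = ⇑(CuspForm.discriminant : ModularForm 𝒮ℒ 12) := by
    funext τ
    simp only [Sturm.Bd, mulH_one]
    rfl
  rw [h]
  exact isMF_levelOne _

theorem isMF_Bd_pow_mul_jd_pow (S e : ℕ) (he : e ≤ S) :
    IsMF Γ (12 * S) (Sturm.Bd 1 ^ S * jd 1 ^ e) := by
  obtain ⟨r, rfl⟩ := Nat.exists_eq_add_of_le he
  have h : Sturm.Bd 1 ^ (e + r) * jd 1 ^ e = Sturm.Ad 1 ^ e * Sturm.Bd 1 ^ r := by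
    rw [← Sturm.jd_mul_Bd, mul_pow, pow_add]
    ring
  rw [h]
  exact (((isMF_Ad (Γ := Γ)).pow e).mul ((isMF_Bd (Γ := Γ)).pow r)).cast
    (by push_cast; ring)

/-- the Sturm bound. -/
theorem sturm_bound (hT : ModularGroup.T ∈ Γ) {k : ℤ} (f : ModularForm (GG Γ) k)
    (h : ∀ n : ℕ, n ≤ (k * Γ.index).toNat / 12 → (qExpansion 1 f).coeff n = 0) : f = 0 := by
  refine ModularForm.sturm_bound_of_isArithmetic (one_mem_strictPeriods hT) ?_
  have h1 : (GG Γ).relIndex 𝒮ℒ = Γ.index := by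
    rw [← Subgroup.index_comap,
      Subgroup.comap_map_eq_self_of_injective Matrix.SpecialLinearGroup.mapGL_injective]
  rw [h1]
  refine lt_of_lt_of_le (by exact_mod_cast Nat.lt_succ_self _)
    (PowerSeries.nat_le_order _ _ fun n hn ↦ ?_)
  exact h n (by lia)

end closure

instance instFiniteIndexDatum (D : Datum) : D.Γ.FiniteIndex :=
  Subgroup.finiteIndex_of_le D.lvl

/-- conjugates of `T ^ h` lie in `Γ`. -/
theorem Datum.conj_T_pow_mem (D : Datum) (g : SL(2, ℤ)) :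
    g * ModularGroup.T ^ (D.h : ℤ) * g⁻¹ ∈ D.Γ := by
  have h1 : ModularGroup.T ^ (D.h : ℤ) ∈ CongruenceSubgroup.Gamma D.h := by
    have := CongruenceSubgroup.ModularGroup_T_pow_mem_Gamma (D.h : ℤ) (D.h : ℤ) dvd_rfl
    simpa using this
  exact D.lvl ((CongruenceSubgroup.Gamma_normal D.h).conj_mem _ h1 g)

end

end Fermat.Agent.S48.AnD
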