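import Fermat.Agent.S48.AnD.Model
import Fermat.Agent.S48.AnD.MF

/-! # ES/An-DictCusp : Dict-2 (analytic ⇒ algebraic) at the places over `j = ∞`.

Apply `dvd_ord_of_package` with `u = j⁻¹`, `X = XD D`, `σ (gΓ₀) = lau D.h ∘ cmp (slp g⁻¹) ∘ M.φ` (`M.cusp`),
`U (gΓ₀) = lau D.h (cmp (slp g⁻¹) w)` (`hcusp`), `E₀ = D.h`, `γ₀ = T`, `ζ = (exp (2πi/D.h))⁻¹` exactly as in
`S24.package_cusp` (`laurent_jfun_order`, `lau_cmp_T`).  `hUinv`: if `T^n g Γ₀ = g Γ₀` then `g⁻¹ T^n g ∈ Γ₀(D.h)` has trace `2`. -/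

set_option autoImplicit false

open AlgebraicCurve ModularCurve UpperHalfPlane
open scoped MatrixGroups IntermediateField Manifold ModularForm

namespace Fermat.Agent.S48.AnD

open Fermat.Agent.S24 Fermat.Agent.ES.An

noncomputable section

/-- `j` is invariant under `SL₂(ℤ)`. -/
theorem cmp_jMer (g : SL(2, ℤ)) : cmp (slp g) jMer = jMer := by
  have h0 : cmpHol (slp g) (jdHol 1) = jdHol 1 := by
    apply Subtype.ext
    funext τ
    rw [cmpHol_apply, slp_smul]
    show jd 1 (g • τ) = jd 1 τ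
    rw [Packages.jd_one]
    have h := congrFun (Packages.compInv_jfun g⁻¹) τ
    rw [compInv, inv_inv] at h
    exact h
  unfold jMer jdMer
  rw [cmp_algebraMap, h0]

/-- composition rule in the form used below. -/
theorem cmp_slp_inv_mul (g h : SL(2, ℤ)) (u : Mer) :
    cmp (slp (g * h)⁻¹) u = cmp (slp g⁻¹) (cmp (slp h⁻¹) u) := by
  rw [mul_inv_rev, map_mul, cmp_mul]

theorem algebraMap_laurent_eq {K : Type} [Field K] [Algebra K ℂ] (c : K) :
    algebraMap K (LaurentSeries ℂ) c = algebraMap ℂ (LaurentSeries ℂ) (algebraMap K ℂ c) := by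
  rw [HahnSeries.algebraMap_apply', HahnSeries.algebraMap_apply', PowerSeries.algebraMap_apply,
    PowerSeries.algebraMap_apply]
  rfl

section

variable {D : Datum}

theorem lau_congr {u v : Mer} (hu : u ∈ MerCusp D.h) (hv : v ∈ MerCusp D.h) (h : u = v) :
    lau D.h ⟨u, hu⟩ = lau D.h ⟨v, hv⟩ := by
  subst h; rfl

theorem lau_jMer (h : jMer ∈ MerCusp D.h) :
    lau D.h ⟨jMer, h⟩ = laurent D.h ⟨jfun, jfun_mem_HolCusp D.h⟩ := by
  have e : cuspIncl D.h ⟨jfun, jfun_mem_HolCusp D.h⟩ = jdHol 1 :=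
    Subtype.ext Packages.jd_one.symm
  have h1 := lau_div D.h ⟨jfun, jfun_mem_HolCusp D.h⟩ 1 one_ne_zero ⟨jMer, h⟩ (by
    show jMer = _
    rw [map_one, map_one, div_one, e]
    rfl)
  rw [h1, map_one, div_one]

/-- iterated translation. -/
theorem lau_cmp_T_pow (u : Mer) (hu : u ∈ MerCusp D.h) (n : ℕ)
    (hn : cmp (slp (ModularGroup.T ^ n)⁻¹) u ∈ MerCusp D.h) (k : ℤ) :
    (lau D.h ⟨_, hn⟩).coeff k
      = (((Complex.exp (2 * Real.pi * Complex.I / D.h))⁻¹) ^ k) ^ n * (lau D.h ⟨u, hu⟩).coeff k := by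
  induction n with
  | zero =>
    rw [pow_zero (((Complex.exp (2 * Real.pi * Complex.I / D.h))⁻¹) ^ k), one_mul]
    refine congrArg (fun x : LaurentSeries ℂ => x.coeff k) (lau_congr _ _ ?_)
    rw [pow_zero, inv_one, map_one, cmp_one]
  | succ n ih =>
    have hn' : cmp (slp (ModularGroup.T ^ n)⁻¹) u ∈ MerCusp D.h := by
      have := cmp_T_mem_MerCusp D.h u hu (-(n : ℤ))
      rwa [zpow_neg, zpow_natCast] at this
    have e : cmp (slp (ModularGroup.T ^ (n + 1))⁻¹) u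
        = cmp (slp ModularGroup.T⁻¹) (cmp (slp (ModularGroup.T ^ n)⁻¹) u) := by
      rw [pow_succ', cmp_slp_inv_mul]
    have h1 : cmp (slp ModularGroup.T⁻¹) (cmp (slp (ModularGroup.T ^ n)⁻¹) u) ∈ MerCusp D.h := by
      rw [← e]; exact hn
    rw [lau_congr hn h1 e, lau_cmp_T D.h ⟨_, hn'⟩ h1 k, ih hn', pow_succ]
    ring

end

variable {D : Datum} {K F : Type} [Field K] [Field F] [Algebra K F] [Algebra K ℂ]

/-- the expansion of `f` at the cusp `g ∞`. -/
def Model.cuspHom (M : Model D K F) (g : SL(2, ℤ)) : F →ₐ[K] LaurentSeries ℂ where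
  toFun f := lau D.h ⟨cmp (slp g⁻¹) (M.φ f), M.cusp g⁻¹ f⟩
  map_one' := by
    rw [← map_one (lau D.h)]
    apply lau_congr
    rw [map_one, map_one]
  map_mul' a b := by
    rw [← map_mul (lau D.h)]
    apply lau_congr
    rw [map_mul, map_mul]
  map_zero' := by
    rw [← map_zero (lau D.h)]
    apply lau_congr
    rw [map_zero, map_zero]
  map_add' a b := by
    rw [← map_add (lau D.h)]
    apply lau_congr
    rw [map_add, map_add]
  commutes' c := by
    rw [algebraMap_laurent_eq, ← (lau D.h).commutes]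
    apply lau_congr
    rw [M.φ_alg, AlgHom.commutes]

theorem Model.cuspHom_apply (M : Model D K F) (g : SL(2, ℤ)) (f : F) :
    M.cuspHom g f = lau D.h ⟨cmp (slp g⁻¹) (M.φ f), M.cusp g⁻¹ f⟩ := rfl

theorem Model.cuspHom_mul_of_mem (M : Model D K F) (g γ : SL(2, ℤ))
    (hγ : γ ∈ D.Γ) : M.cuspHom (g * γ) = M.cuspHom g := by
  ext1 f
  rw [M.cuspHom_apply, M.cuspHom_apply]
  apply lau_congr
  rw [cmp_slp_inv_mul]
  congr 1
  exact M.inv ⟨γ⁻¹, inv_mem hγ⟩ f

theorem Model.cuspHom_out (M : Model D K F) (g : SL(2, ℤ)) :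
    M.cuspHom (Quotient.out (g : XD D)) = M.cuspHom g := by
  obtain ⟨γ, hγ⟩ := QuotientGroup.mk_out_eq_mul D.Γ g
  rw [hγ, M.cuspHom_mul_of_mem g γ γ.2]

variable [IsAlgClosed K] [CharZero K]

set_option maxHeartbeats 1000000 in
theorem Model.dvd_ord_of_char_cusp (M : Model D K F) (m : ℕ) (f : F) (hf0 : f ≠ 0) (w : Mer)
    (hw : w ^ m = M.φ f) (ψ : D.Γ →* ℂˣ) (hψ : IsGood ψ)
    (hc : IsChar w ψ) (hcusp : ∀ g : SL(2, ℤ), cmp (slp g) w ∈ MerCusp D.h)
    (P : Place K F) (hP : P.ord M.j < 0) : (m : ℤ) ∣ P.ord f := by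
  have hfin := M.fin
  have hfin' : FiniteDimensional K⟮M.j⁻¹⟯ F := FF.finiteDimensional_congr K (FF.adjoin_simple_inv K M.j).symm
  have hN : 0 < D.h := Nat.pos_of_ne_zero (NeZero.ne D.h)
  have hj : ∀ g : SL(2, ℤ), M.cuspHom g M.j = laurent D.h ⟨jfun, jfun_mem_HolCusp D.h⟩ := by
    intro g
    have h1 : jMer ∈ MerCusp D.h := by
      have := M.cusp 1 M.j
      rwa [map_one, cmp_one, M.φ_j] at this
    rw [M.cuspHom_apply, ← lau_jMer h1]
    apply lau_congr
    rw [M.φ_j, cmp_jMer]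
  refine dvd_ord_of_package (G := SL(2, ℤ)) (X := XD D) M.j⁻¹ (FF.transcendental_inv K M.tr)
    (fun a => M.cuspHom (Quotient.out a)) ?_ ?_ ?_ D.h hN ?_
    (Complex.exp (2 * Real.pi * Complex.I / D.h))⁻¹
    (Complex.isPrimitiveRoot_exp D.h (NeZero.ne D.h)).inv ModularGroup.T ?_ m f hf0
    (fun a => lau D.h ⟨cmp (slp (Quotient.out a)⁻¹) w, hcusp _⟩) ?_ ?_ P ?_
  · -- injectivity
    intro a b hab
    rw [← Quotient.out_eq a, ← Quotient.out_eq b]
    set g := Quotient.out a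
    set h := Quotient.out b
    show ((g : SL(2, ℤ)) : XD D) = ((h : SL(2, ℤ)) : XD D)
    rw [QuotientGroup.eq]
    apply M.sep
    intro x
    have h1 := congrArg (fun s : F →ₐ[K] LaurentSeries ℂ => s x) hab
    simp only [M.cuspHom_apply] at h1
    have h2 := (lau D.h).toRingHom.injective h1
    have h3 : cmp (slp g⁻¹) (M.φ x) = cmp (slp h⁻¹) (M.φ x) := congrArg Subtype.val h2
    have h4 := congrArg (cmp (slp h)) h3
    rw [← cmp_mul, ← cmp_mul, ← map_mul, ← map_mul, inv_mul_cancel, map_one, cmp_one] at h4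
    exact h4
  · rw [← M.deg]
    exact (FF.finrank_congr K (FF.adjoin_simple_inv K M.j)).symm
  · intro a b
    rw [map_inv₀, map_inv₀, hj, hj]
  · intro a
    have hne : laurent D.h ⟨jfun, jfun_mem_HolCusp D.h⟩ ≠ 0 := by
      intro h
      have h2 := laurent_jfun_order D.h
      rw [h, HahnSeries.order_zero] at h2
      have : (D.h : ℤ) ≠ 0 := by exact_mod_cast NeZero.ne D.h
      omega
    rw [map_inv₀, hj, Packages.order_inv_eq _ hne, laurent_jfun_order, neg_neg]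
  · -- translation
    intro a x k
    have e1 : ModularGroup.T • a = ((ModularGroup.T * Quotient.out a : SL(2, ℤ)) : XD D) := by
      conv_lhs => rw [← Quotient.out_eq a]
      rfl
    rw [e1, M.cuspHom_out, M.cuspHom_apply, M.cuspHom_apply]
    have e2 := cmp_slp_inv_mul ModularGroup.T (Quotient.out a) (M.φ x)
    have h1 : cmp (slp ModularGroup.T⁻¹) (cmp (slp (Quotient.out a)⁻¹) (M.φ x)) ∈ MerCusp D.h := by
      rw [← e2]; exact M.cusp _ x
    rw [lau_congr (M.cusp _ x) h1 e2]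
    exact lau_cmp_T D.h ⟨_, M.cusp _ x⟩ h1 k
  · intro a
    rw [M.cuspHom_apply, ← map_pow]
    apply lau_congr
    rw [← hw, map_pow]
  · -- invariance under the stabiliser
    intro a n hna k
    set g := Quotient.out a with hg
    have ha : a = ((g : SL(2, ℤ)) : XD D) := (Quotient.out_eq a).symm
    have h1 : ((ModularGroup.T ^ n * g : SL(2, ℤ)) : XD D) = ((g : SL(2, ℤ)) : XD D) := by
      have : ModularGroup.T ^ n • ((g : SL(2, ℤ)) : XD D) = ((g : SL(2, ℤ)) : XD D) := by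
        rw [← ha]; exact hna
      exact this
    rw [eq_comm, QuotientGroup.eq] at h1
    set γ' : SL(2, ℤ) := g⁻¹ * (ModularGroup.T ^ n * g) with hγ'
    have htr : |((γ' : SL(2, ℤ)) : Matrix (Fin 2) (Fin 2) ℤ).trace| ≤ 2 := by
      have e : ((γ' : SL(2, ℤ)) : Matrix (Fin 2) (Fin 2) ℤ).trace
          = ((ModularGroup.T ^ n : SL(2, ℤ)) : Matrix (Fin 2) (Fin 2) ℤ).trace := by
        rw [hγ', Matrix.SpecialLinearGroup.coe_mul, Matrix.SpecialLinearGroup.coe_mul,
          Matrix.trace_mul_comm, Matrix.mul_assoc, ← Matrix.SpecialLinearGroup.coe_mul,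
          mul_inv_cancel, Matrix.SpecialLinearGroup.coe_one, Matrix.mul_one]
      rw [e, ← zpow_natCast, ModularGroup.coe_T_zpow, Matrix.trace_fin_two]
      simp
    have hψ1 : ψ ⟨γ', h1⟩ = 1 := hψ.2 ⟨γ', h1⟩ htr
    have hinv : cmp (slp γ'⁻¹) w = w := by
      have h2 := hc (⟨γ', h1⟩⁻¹)
      rw [map_inv, hψ1, inv_one, Units.val_one, one_smul] at h2
      exact h2
    have e : cmp (slp (ModularGroup.T ^ n)⁻¹) (cmp (slp g⁻¹) w) = cmp (slp g⁻¹) w := by
      rw [← cmp_slp_inv_mul]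
      have : ModularGroup.T ^ n * g = g * γ' := by rw [hγ', mul_inv_cancel_left]
      rw [this, cmp_slp_inv_mul, hinv]
    have hmem : cmp (slp (ModularGroup.T ^ n)⁻¹) (cmp (slp g⁻¹) w) ∈ MerCusp D.h := by
      rw [e]; exact hcusp _
    rw [← lau_cmp_T_pow (cmp (slp g⁻¹) w) (hcusp _) n hmem k]
    exact congrArg (fun x : LaurentSeries ℂ => x.coeff k) (lau_congr _ _ e.symm)
  · rw [P.ord_inv]
    omega

end

end Fermat.Agent.S48.AnD
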