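import Fermat.Agent.S48.AnD.DictCore
import Fermat.Agent.S24.FF.DegOne

/-! # ES/An-DictPt : Dict-2 (analytic ⇒ algebraic) at the places over finite values of `j`.

Let `P` be a place with `0 ≤ P.ord j`.  `S24.FF.exists_sub_ord_pos`: `0 < P.ord (j - c)` for some `c : K`.  Choose `τ₀` with
`jfun τ₀ = c` (`S24.jfun_surjective`; for `c = 1728` take `τ₀ = I`, for `c = 0` take `τ₀ = rhoH`).
Apply `dvd_ord_of_package` with `u = j - c`, `X = XD D`, `σ (gΓ₀) = tay τ₀ ∘ cmp (slp g⁻¹) ∘ M.φ`,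
`U (gΓ₀) = tay τ₀ (cmp (slp g⁻¹) w)` (`g = Quotient.out`), and
`(E₀, γ₀, ζ) = (1, 1, 1)`, `(2, S, -1)`, `(3, S*T, ρ)` exactly as in `S24/Packages.lean`
(`package_generic`, `package_I`, `package_rho`; `order_jfun_sub_generic`, `order_jfun_sub_I`, `order_jfun_rho`, `tay_cmp_fix`).
`hUinv`: if `γ₀^n g Γ₀ = g Γ₀` then `γ' := g⁻¹ γ₀^n g ∈ Γ₀(D)` has `|trace| ≤ 2`, so `ψ γ' = 1` and
`cmp (slp (γ₀^n)⁻¹) (cmp (slp g⁻¹) w) = cmp (slp g⁻¹) w`; then `tay_cmp_fix`.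
(The common part of the argument is `DictCore.main`.) -/

set_option autoImplicit false

open AlgebraicCurve ModularCurve UpperHalfPlane
open scoped MatrixGroups IntermediateField Manifold ModularForm

namespace Fermat.Agent.S48.AnD

open Fermat.Agent.S24 Fermat.Agent.ES.An

noncomputable section

variable {D : Datum} {K F : Type} [Field K] [Field F] [Algebra K F] [Algebra K ℂ]
  [IsAlgClosed K] [CharZero K]

namespace DictPt

theorem trace_pow_of_period (γ₀ : SL(2, ℤ)) (r : ℕ) (hr : 0 < r) (h1 : γ₀ ^ r = 1)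
    (h : ∀ i < r, |((γ₀ ^ i : SL(2, ℤ)) : Matrix (Fin 2) (Fin 2) ℤ).trace| ≤ 2) (n : ℕ) :
    |((γ₀ ^ n : SL(2, ℤ)) : Matrix (Fin 2) (Fin 2) ℤ).trace| ≤ 2 := by
  rw [pow_eq_pow_mod n h1]
  exact h _ (Nat.mod_lt _ hr)

theorem trace_S (n : ℕ) :
    |((ModularGroup.S ^ n : SL(2, ℤ)) : Matrix (Fin 2) (Fin 2) ℤ).trace| ≤ 2 :=
  trace_pow_of_period _ 4 (by norm_num) (by decide) (by decide) n

theorem trace_ST (n : ℕ) :
    |(((ModularGroup.S * ModularGroup.T) ^ n : SL(2, ℤ)) : Matrix (Fin 2) (Fin 2) ℤ).trace| ≤ 2 :=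
  trace_pow_of_period _ 6 (by norm_num) (by decide) (by decide) n

theorem trace_one (n : ℕ) :
    |(((1 : SL(2, ℤ)) ^ n : SL(2, ℤ)) : Matrix (Fin 2) (Fin 2) ℤ).trace| ≤ 2 :=
  trace_pow_of_period _ 1 (by norm_num) (by decide) (by decide) n

/-- the common argument at a point `τ₀` with `j(τ₀) = c`. -/
theorem core (M : Model D K F) (m : ℕ) (f : F) (hf0 : f ≠ 0) (w : Mer)
    (hw : w ^ m = M.φ f) (ψ : D.Γ →* ℂˣ) (hψ : IsGood ψ)
    (hc : IsChar w ψ) (c : K) (τ₀ : ℍ) (E₀ : ℕ) (hE₀ : 0 < E₀)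
    (hord : analyticOrderAt ((fun τ => jfun τ - algebraMap K ℂ c) ∘ ofComplex) (τ₀ : ℂ) = E₀)
    (γ₀ : SL(2, ℤ)) (hfix : γ₀ • τ₀ = τ₀)
    (hζ : IsPrimitiveRoot (denom (γ₀ : GL (Fin 2) ℝ) τ₀ ^ 2) E₀)
    (htr : ∀ n : ℕ, |((γ₀ ^ n : SL(2, ℤ)) : Matrix (Fin 2) (Fin 2) ℤ).trace| ≤ 2)
    (P : Place K F) (hP : 0 < P.ord (M.j - algebraMap K F c)) : (m : ℤ) ∣ P.ord f := by
  have hφu : M.φ (M.j - algebraMap K F c)
      = algebraMap Hol Mer (jdHol 1 - algebraMap ℂ Hol (algebraMap K ℂ c)) := by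
    rw [map_sub, M.φ_j, M.φ_alg, map_sub, ← IsScalarTower.algebraMap_apply ℂ Hol Mer]
    rfl
  have hfun : ((jdHol 1 - algebraMap ℂ Hol (algebraMap K ℂ c) : Hol) : ℍ → ℂ)
      = fun τ => jfun τ - algebraMap K ℂ c := by
    funext τ
    show jd 1 τ - algebraMap K ℂ c = _
    rw [Packages.jd_one]
  refine DictCore.main M ⊤ ((tay τ₀).comp (⊤ : IntermediateField ℂ Mer).val)
    (fun _ _ => IntermediateField.mem_top) m f hf0 w hw ψ hψ hc
    (fun _ => IntermediateField.mem_top) (M.j - algebraMap K F c)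
    (FF.transcendental_sub_algebraMap K M.tr c) (FF.adjoin_simple_sub_algebraMap K M.j c)
    ?_ E₀ hE₀ ?_ _ hζ γ₀ ?_ htr P hP
  · intro g
    rw [map_sub, map_sub, M.φ_j, M.φ_alg, DictCore.cmp_jMer, AlgHom.commutes]
  · intro h
    show (tay τ₀ (M.φ (M.j - algebraMap K F c))).order = _
    rw [hφu, tay_algebraMap]
    refine taylorAt_order τ₀ _ E₀ ?_
    rw [hfun]
    exact hord
  · intro x hx k
    exact tay_cmp_fix τ₀ γ₀ hfix (x : Mer) k

end DictPt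

open AnD.DictPt in
theorem Model.dvd_ord_of_char_pt (M : Model D K F) (m : ℕ) (f : F) (hf0 : f ≠ 0) (w : Mer)
    (hw : w ^ m = M.φ f) (ψ : D.Γ →* ℂˣ) (hψ : IsGood ψ)
    (hc : IsChar w ψ) (P : Place K F) (hP : 0 ≤ P.ord M.j) : (m : ℤ) ∣ P.ord f := by
  have := M.fin
  obtain ⟨c, hc0 | hc0⟩ := FF.exists_sub_ord_pos K M.j M.tr P hP
  · exact absurd (hc0 ▸ isAlgebraic_algebraMap (A := F) c) M.tr
  by_cases h0 : c = 0
  · subst h0
    refine core M m f hf0 w hw ψ hψ hc 0 rhoH 3 (by norm_num) ?_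
      (ModularGroup.S * ModularGroup.T) ST_smul_rho ?_ trace_ST P hc0
    · have := order_jfun_rho
      simpa using this
    · rw [Packages.denom_ST, Packages.rho_sq]
      exact Packages.rho_prim
  by_cases h1 : c = 1728
  · subst h1
    refine core M m f hf0 w hw ψ hψ hc 1728 UpperHalfPlane.I 2 (by norm_num) ?_
      ModularGroup.S S_smul_I ?_ trace_S P hc0
    · rw [map_ofNat (algebraMap K ℂ) 1728]
      exact order_jfun_sub_I
    · rw [Packages.denom_S_I]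
      exact IsPrimitiveRoot.neg_one 0 (by norm_num)
  · obtain ⟨τ₀, hτ₀⟩ := jfun_surjective (algebraMap K ℂ c)
    have h0' : jfun τ₀ ≠ 0 := by
      rw [hτ₀]
      exact (map_ne_zero (algebraMap K ℂ)).2 h0
    have h1' : jfun τ₀ ≠ 1728 := by
      rw [hτ₀]
      intro h
      apply h1
      apply (algebraMap K ℂ).injective
      rw [h]
      exact (map_ofNat (algebraMap K ℂ) 1728).symm
    refine core M m f hf0 w hw ψ hψ hc c τ₀ 1 (by norm_num) ?_ 1 (one_smul _ _) ?_ trace_one P hc0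
    · rw [← hτ₀]
      exact_mod_cast order_jfun_sub_generic τ₀ h0' h1'
    · have : denom ((1 : SL(2, ℤ)) : GL (Fin 2) ℝ) τ₀ ^ 2 = 1 := by
        simp [denom]
      rw [this]
      exact IsPrimitiveRoot.one

end

end Fermat.Agent.S48.AnD
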