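import Fermat.Agent.S48.AnD.Defs
import Fermat.Agent.ES.An.Eis.Gc

/-! # ES/An-Eis : twisted Eisenstein series of weight 4.

For `c : (Fin 2 → ℤ) → ℂ` bounded put `G_c τ = ∑' v, c v * (v 0 * τ + v 1)^(-4)`.
* `G_c` is holomorphic on `ℍ` (Weierstrass M-test with Mathlib's `EisensteinSeries.summand_bound_of_mem_verticalStrip`,
  `EisensteinSeries.summable_norm_eisSummand`, cf. `eisensteinSeries_tendstoLocallyUniformlyOn`);
* `G_c ∣[4] g = G_{c'}`, `c' v = c (v ᵥ* g⁻¹)` for `g ∈ SL₂(ℤ)` (reindexing, cf. `EisensteinSeries.eisSummand_SL2_apply`);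
* `G_c` is bounded at `i∞` and tends to `∑_{v 0 = 0} c v * (v 1)^(-4)`.
Take `c v = ψ(γ_v)⁻¹` (or `ψ(γ_v)`, whichever gives the stated sign) if `v` is the bottom row of some `γ_v ∈ Γ₀(N)`
(i.e. `v` coprime, `N ∣ v 0`), and `0` otherwise; this is well defined because two such `γ_v` differ by a left factor `T^n`
and `ψ (T^n) = 1`.  The limit at `i∞` is `c (0,1) + c (0,-1) = 2`. -/

set_option autoImplicit false

open AlgebraicCurve ModularCurve UpperHalfPlane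
open scoped MatrixGroups IntermediateField Manifold ModularForm

namespace Fermat.Agent.S48.AnD

open Fermat.Agent.S24 Fermat.Agent.ES.An
open Fermat.Agent.ES.An.Eis (Gc Gc_mdiff Gc_tendsto Gc_slash Gc_isBoundedAtImInfty vecMul_inv_mul vecMul_mul_inv)

noncomputable section

namespace Eis

open Matrix

/-- the bottom row. -/
def botRow (γ : SL(2, ℤ)) : Fin 2 → ℤ := fun i => γ 1 i

lemma botRow_mul (γ δ : SL(2, ℤ)) : botRow (γ * δ) = botRow γ ᵥ* δ := by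
  ext i
  simp [botRow, Matrix.SpecialLinearGroup.coe_mul, Matrix.mul_apply, Matrix.vecMul, dotProduct]

lemma botRow_one : botRow 1 = ![0, 1] := by
  ext i
  fin_cases i <;> simp [botRow]

variable {D : Datum}

lemma psi_eq_of_botRow_eq {ψ : D.Γ →* ℂˣ} (hψ : IsGood ψ)
    (γ δ : D.Γ)
    (h : botRow (γ : SL(2, ℤ)) = botRow (δ : SL(2, ℤ))) : ψ γ = ψ δ := by
  have h1 : botRow ((γ * δ⁻¹ : D.Γ) : SL(2, ℤ)) = ![0, 1] := by
    have e : ((γ * δ⁻¹ : D.Γ) : SL(2, ℤ)) =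
        (γ : SL(2, ℤ)) * (δ : SL(2, ℤ))⁻¹ := rfl
    rw [e, botRow_mul, h, ← botRow_mul, mul_inv_cancel, botRow_one]
  set M : SL(2, ℤ) := ((γ * δ⁻¹ : D.Γ) : SL(2, ℤ)) with hM
  have h10 : M 1 0 = 0 := by simpa [botRow] using congrFun h1 0
  have h11 : M 1 1 = 1 := by simpa [botRow] using congrFun h1 1
  have hdet := M.det_coe
  rw [Matrix.det_fin_two, h10, h11] at hdet
  have h00 : M 0 0 = 1 := by linarith
  have htr : |(M : Matrix (Fin 2) (Fin 2) ℤ).trace| ≤ 2 := by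
    rw [Matrix.trace_fin_two, h00, h11]; norm_num
  have h2 := hψ.2 (γ * δ⁻¹) htr
  rw [map_mul, map_inv, mul_inv_eq_one] at h2
  exact h2

open Classical in
/-- the coefficient function attached to `ψ`. -/
def cpsi (ψ : D.Γ →* ℂˣ) (v : Fin 2 → ℤ) : ℂ :=
  if h : ∃ γ : D.Γ, botRow (γ : SL(2, ℤ)) = v then
    (((ψ h.choose)⁻¹ : ℂˣ) : ℂ) else 0

lemma cpsi_botRow {ψ : D.Γ →* ℂˣ} (hψ : IsGood ψ)
    (γ : D.Γ) :
    cpsi ψ (botRow (γ : SL(2, ℤ))) = (((ψ γ)⁻¹ : ℂˣ) : ℂ) := by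
  have h : ∃ δ : D.Γ, botRow (δ : SL(2, ℤ)) = botRow (γ : SL(2, ℤ)) :=
    ⟨γ, rfl⟩
  rw [cpsi, dif_pos h, psi_eq_of_botRow_eq hψ _ _ h.choose_spec]

lemma cpsi_of_not {ψ : D.Γ →* ℂˣ} {v : Fin 2 → ℤ}
    (h : ¬ ∃ γ : D.Γ, botRow (γ : SL(2, ℤ)) = v) : cpsi ψ v = 0 := by
  rw [cpsi, dif_neg h]

lemma norm_cpsi_le {ψ : D.Γ →* ℂˣ} (hψ : IsGood ψ) (v : Fin 2 → ℤ) :
    ‖cpsi ψ v‖ ≤ 1 := by
  by_cases h : ∃ γ : D.Γ, botRow (γ : SL(2, ℤ)) = v
  · obtain ⟨γ, rfl⟩ := h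
    rw [cpsi_botRow hψ, Units.val_inv_eq_inv_val, norm_inv, hψ.1 γ, inv_one]
  · rw [cpsi_of_not h, norm_zero]; exact zero_le_one

lemma cpsi_vecMul_inv {ψ : D.Γ →* ℂˣ} (hψ : IsGood ψ)
    (γ : D.Γ) (v : Fin 2 → ℤ) :
    cpsi ψ (v ᵥ* ↑((γ : SL(2, ℤ))⁻¹)) = ((ψ γ : ℂˣ) : ℂ) * cpsi ψ v := by
  by_cases h : ∃ δ : D.Γ, botRow (δ : SL(2, ℤ)) = v
  · obtain ⟨δ, rfl⟩ := h
    have e : botRow (δ : SL(2, ℤ)) ᵥ* ↑((γ : SL(2, ℤ))⁻¹) =
        botRow ((δ * γ⁻¹ : D.Γ) : SL(2, ℤ)) := by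
      rw [← botRow_mul]; rfl
    rw [e, cpsi_botRow hψ, cpsi_botRow hψ, map_mul, map_inv, mul_inv, inv_inv, mul_comm,
      Units.val_mul]
  · have h' : ¬ ∃ δ : D.Γ,
        botRow (δ : SL(2, ℤ)) = v ᵥ* ↑((γ : SL(2, ℤ))⁻¹) := by
      rintro ⟨δ, hδ⟩
      apply h
      refine ⟨δ * γ, ?_⟩
      have e : ((δ * γ : D.Γ) : SL(2, ℤ)) =
          (δ : SL(2, ℤ)) * (γ : SL(2, ℤ)) := rfl
      rw [e, botRow_mul, hδ, vecMul_inv_mul]
    rw [cpsi_of_not h, cpsi_of_not h', mul_zero]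

/-- `-1 ∈ Γ₀(N)`. -/
def negOne (D : Datum) : D.Γ := ⟨-1, D.neg_mem⟩

lemma limit_eq_two {ψ : D.Γ →* ℂˣ} (hψ : IsGood ψ) :
    (∑' v : Fin 2 → ℤ, if v 0 = 0 then cpsi ψ v * ((v 1 : ℤ) : ℂ) ^ (-(4 : ℤ)) else 0) = 2 := by
  have hne : (![0, 1] : Fin 2 → ℤ) ≠ ![0, -1] := by
    intro h
    have := congrFun h 1
    simp at this
  rw [tsum_eq_sum (s := {![0, 1], ![0, -1]})]
  · rw [Finset.sum_pair hne]
    have h1 : cpsi ψ ![0, 1] = 1 := by
      have := cpsi_botRow hψ (1 : D.Γ)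
      rw [map_one, inv_one, Units.val_one] at this
      rw [← this]
      congr 1
      exact botRow_one.symm
    have h2 : cpsi ψ ![0, -1] = 1 := by
      have := cpsi_botRow hψ (negOne D)
      have htr : |((negOne D : SL(2, ℤ)) : Matrix (Fin 2) (Fin 2) ℤ).trace| ≤ 2 := by
        rw [Matrix.trace_fin_two]
        simp [negOne]
      rw [hψ.2 _ htr, inv_one, Units.val_one] at this
      rw [← this]
      congr 1
      ext i
      fin_cases i <;> simp [botRow, negOne]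
    simp only [Matrix.cons_val_zero, if_true, Matrix.cons_val_one, h1, h2]
    norm_num
  · intro v hv
    by_cases h0 : v 0 = 0
    · rw [if_pos h0]
      by_cases h : ∃ γ : D.Γ, botRow (γ : SL(2, ℤ)) = v
      · exfalso
        obtain ⟨γ, rfl⟩ := h
        set M : SL(2, ℤ) := (γ : SL(2, ℤ)) with hM
        have h10 : M 1 0 = 0 := h0
        have hdet := M.det_coe
        rw [Matrix.det_fin_two, h10, mul_zero, sub_zero] at hdet
        have hu : M 1 1 = 1 ∨ M 1 1 = -1 :=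
          Int.isUnit_iff.1 (IsUnit.of_mul_eq_one _ (by rw [mul_comm]; exact hdet))
        apply hv
        simp only [Finset.mem_insert, Finset.mem_singleton]
        rcases hu with hu | hu
        · left
          ext i
          fin_cases i
          · exact h10
          · exact hu
        · right
          ext i
          fin_cases i
          · exact h10
          · exact hu
      · rw [cpsi_of_not h, zero_mul]
    · rw [if_neg h0]

end Eis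

variable (D : Datum)

open AnD.Eis in
theorem exists_twisted_eisenstein (ψ : D.Γ →* ℂˣ) (hψ : IsGood ψ) :
    ∃ E : Hol, E ≠ 0 ∧
      (∀ γ : D.Γ,
        ((E : ℍ → ℂ) ∣[(4 : ℤ)] (γ : SL(2, ℤ))) = ((ψ γ : ℂˣ) : ℂ) • (E : ℍ → ℂ)) ∧
      (∀ g : SL(2, ℤ), IsBoundedAtImInfty ((E : ℍ → ℂ) ∣[(4 : ℤ)] g)) := by
  have hc := norm_cpsi_le hψ
  refine ⟨⟨Gc (cpsi ψ), Gc_mdiff hc⟩, ?_, fun γ => ?_, fun g => ?_⟩
  · intro h0
    have h1 : Gc (cpsi ψ) = 0 := congrArg Subtype.val h0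
    have h2 := Gc_tendsto hc
    rw [limit_eq_two hψ, h1] at h2
    have h3 : (0 : ℂ) = 2 := tendsto_nhds_unique (tendsto_const_nhds) h2
    norm_num at h3
  · show Gc (cpsi ψ) ∣[(4 : ℤ)] (γ : SL(2, ℤ)) = ((ψ γ : ℂˣ) : ℂ) • Gc (cpsi ψ)
    rw [Gc_slash]
    ext z
    simp only [Gc, Pi.smul_apply, smul_eq_mul, cpsi_vecMul_inv hψ, mul_assoc, tsum_mul_left]
  · show IsBoundedAtImInfty (Gc (cpsi ψ) ∣[(4 : ℤ)] g)
    rw [Gc_slash]
    exact Gc_isBoundedAtImInfty fun v => hc _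

end

end Fermat.Agent.S48.AnD
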