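import Fermat.Agent.S48.AnD.Degree
import Fermat.Agent.S48.AnD.Eis
import Fermat.Agent.ES.An.MkMF

/-! # ES/An-EisMer : a meromorphic function with prescribed good character of finite order.

`w := E_ψ / E_1` (`exists_twisted_eisenstein` for `ψ` and for `1`).
* `IsChar w ψ`: the automorphy factors cancel.
* `cmp (slp g) w = (E_ψ ∣[4] g) / (E_1 ∣[4] g)`, and `E_ψ ∣[4] g ∈ HolCusp D.h`: holomorphic, bounded at `i∞`, and
  `N`-periodic since `g T^N g⁻¹ ∈ Γ(N) ⊆ Γ₀(N)` has trace `2`, so `ψ` kills it.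
* `E_ψ ^ m`, `E_1 ^ m` are modular forms of weight `4 m` on `Γ₀(N)`, so `w ^ m` is `IsMFr`: `mem_range_of_isMFr`. -/

set_option autoImplicit false

open AlgebraicCurve ModularCurve UpperHalfPlane
open scoped MatrixGroups IntermediateField Manifold ModularForm

namespace Fermat.Agent.S48.AnD

open Fermat.Agent.S24 Fermat.Agent.ES.An

noncomputable section

variable (D : Datum)

theorem exists_char_fun (ψ : D.Γ →* ℂˣ) (hψ : IsGood ψ)
    (m : ℕ) (hm : 0 < m) (hψm : ψ ^ m = 1) :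
    ∃ (w : Mer) (f : FC D), w ≠ 0 ∧ IsChar w ψ ∧
      (∀ g : SL(2, ℤ), cmp (slp g) w ∈ MerCusp D.h) ∧ w ^ m = toMer D f := by
  obtain ⟨E, hE0, hEsl, hEb⟩ := exists_twisted_eisenstein D ψ hψ
  obtain ⟨E1, hE10, hE1sl, hE1b⟩ := exists_twisted_eisenstein D 1 (isGood_one _)
  have hinj := IsFractionRing.injective Hol Mer
  have hEM : algebraMap Hol Mer E ≠ 0 := by
    rw [Ne, map_eq_zero_iff _ hinj]; exact hE0
  have hE1M : algebraMap Hol Mer E1 ≠ 0 := by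
    rw [Ne, map_eq_zero_iff _ hinj]; exact hE10
  -- modularity of the `m`-th powers
  have hpow : ∀ (χ : D.Γ →* ℂˣ) (G : Hol), χ ^ m = 1 →
      (∀ γ : D.Γ,
        ((G : ℍ → ℂ) ∣[(4 : ℤ)] (γ : SL(2, ℤ))) = ((χ γ : ℂˣ) : ℂ) • (G : ℍ → ℂ)) →
      (∀ g : SL(2, ℤ), IsBoundedAtImInfty ((G : ℍ → ℂ) ∣[(4 : ℤ)] g)) →
      IsMF D.Γ (4 * (m : ℤ)) (((G ^ m : Hol) : ℍ → ℂ)) := by
    intro χ G hχ hsl hb
    refine isMF_of D.Γ _ _ (G ^ m : Hol).2 (fun γ => ?_) (fun g => ?_)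
    · show ((G : ℍ → ℂ) ^ m) ∣[4 * (m : ℤ)] (γ : SL(2, ℤ)) = (G : ℍ → ℂ) ^ m
      rw [slash_pow, hsl γ, smul_pow]
      have h1 : (((χ γ : ℂˣ) : ℂ)) ^ m = 1 := by
        have := congrArg (fun c : ℂˣ => (c : ℂ)) (DFunLike.congr_fun hχ γ)
        simpa using this
      rw [h1, one_smul]
    · show IsBoundedAtImInfty (((G : ℍ → ℂ) ^ m) ∣[4 * (m : ℤ)] g)
      rw [slash_pow]
      exact bdd_pow (hb g) m
  have hMFr : IsMFr D.Γ ((algebraMap Hol Mer E / algebraMap Hol Mer E1) ^ m) :=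
    ⟨4 * (m : ℤ), E ^ m, E1 ^ m, hpow ψ E hψm hEsl hEb, hpow 1 E1 (by ext γ; simp) hE1sl hE1b,
      pow_ne_zero m hE10, by rw [div_pow, map_pow, map_pow]⟩
  obtain ⟨f, hf⟩ := mem_range_of_isMFr D _ hMFr
  refine ⟨algebraMap Hol Mer E / algebraMap Hol Mer E1, f, div_ne_zero hEM hE1M, fun γ => ?_,
    fun g => ?_, hf.symm⟩
  · rw [cmp_div_eq 4 (γ : SL(2, ℤ)) E E1 hE10]
    have h1 : slHol 4 (γ : SL(2, ℤ)) E = ((ψ γ : ℂˣ) : ℂ) • E := Subtype.ext (hEsl γ)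
    have h2 : slHol 4 (γ : SL(2, ℤ)) E1 = E1 := Subtype.ext (by
      rw [coe_slHol, hE1sl γ]
      simp)
    rw [h1, h2, Algebra.smul_def, map_mul, Algebra.smul_def, mul_div_assoc,
      ← IsScalarTower.algebraMap_apply]
  · rw [cmp_div_eq 4 g E E1 hE10, mem_MerCusp_iff]
    refine ⟨⟨_, slash_mem_HolCusp D ψ hψ 4 E hEsl hEb g⟩,
      ⟨_, slash_mem_HolCusp D 1 (isGood_one _) 4 E1 hE1sl hE1b g⟩, ?_, rfl⟩
    intro h
    have h' : ((E1 : ℍ → ℂ) ∣[(4 : ℤ)] g) = 0 := congrArg Subtype.val h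
    exact slHol_ne_zero 4 g hE10 (Subtype.ext h')

end

end Fermat.Agent.S48.AnD
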