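import Fermat.Agent.S48.AnD.Main
import Fermat.Agent.S48.AnD.DictCusp
import Fermat.Agent.S48.AnD.DictCore
import Fermat.Agent.S48.AnD.Char
import Fermat.Agent.ES.An.GoodPar

/-! # S48/AnD-GoodPar : (K6), parabolic part (port of `ES/An/GoodPar`; the level-agnostic lemmas are reused). -/

set_option autoImplicit false

open AlgebraicCurve ModularCurve UpperHalfPlane
open scoped MatrixGroups IntermediateField Manifold ModularForm

namespace Fermat.Agent.S48.AnD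

open Fermat.Agent.S24 Fermat.Agent.ES.An

noncomputable section

namespace GoodPar

open Fermat.Agent.ES.An.GoodPar (stab mem_stab cmp_neg dvd_of_invariant mem_MerCusp_of_pow expHol expHol_pow
  expHol_eq_Tq cmpHol_T_pow_expHol cmp_of_conj algebraMap_smul_Hol)

variable {D : Datum} {K F : Type} [Field K] [Field F] [Algebra K F] [Algebra K ℂ]

theorem hasLau_cuspHom (M : Model D K F) (g : SL(2, ℤ)) (x : F) :
    HasLau D.h (cmp (slp g⁻¹) (M.φ x)) (M.cuspHom g x) :=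
  hasLau_lau D.h ⟨_, M.cusp g⁻¹ x⟩

/-- the order trick. -/
theorem dvd_order_cuspHom (M : Model D K F) (g : SL(2, ℤ)) {d e : ℕ} (hN : D.h = d * e)
    (hγ : g⁻¹ * ModularGroup.T ^ d * g ∈ D.Γ) (m : ℕ) (f : F)
    (hf0 : f ≠ 0) (hf : DivBy K m f) : ((e : ℤ) * m) ∣ (M.cuspHom g f).order := by
  have hinvF : ∀ x : F, cmp (slp (ModularGroup.T ^ d)) (cmp (slp g⁻¹) (M.φ x))
      = cmp (slp g⁻¹) (M.φ x) := fun x => cmp_of_conj (M.inv ⟨_, hγ⟩ x)
  have hne : ∀ x : F, x ≠ 0 → M.cuspHom g x ≠ 0 := fun x hx => (map_ne_zero _).mpr hx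
  have hdvd : ∀ x : F, x ≠ 0 → (e : ℤ) ∣ (M.cuspHom g x).order := fun x hx =>
    dvd_of_invariant hN (hasLau_cuspHom M g x) (hinvF x) _ (HahnSeries.coeff_order_eq_zero.not.mpr (hne x hx))
  by_cases hnt : ∃ x : F, x ≠ 0 ∧ (M.cuspHom g x).order ≠ 0
  · obtain ⟨v, c, -, hv⟩ := FF.exists_place_of_ordFun (K := K) (fun x : F => (M.cuspHom g x).order)
      (fun a b ha hb => by
        show (M.cuspHom g (a * b)).order = _
        rw [map_mul, HahnSeries.order_mul (hne a ha) (hne b hb)])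
      (fun a b ha hb hab => by
        show _ ≤ (M.cuspHom g (a + b)).order
        rw [map_add]
        apply HahnSeries.min_order_le_order_add
        rw [← map_add]
        exact hne _ hab)
      (fun c _ => by
        show (M.cuspHom g (algebraMap K F c)).order = 0
        rw [AlgHom.commutes, DictCore.algebraMap_K, HahnSeries.order_C])
      hnt
    obtain ⟨π, hπ⟩ := FF.exists_ord_eq_one v
    have hπ0 : π ≠ 0 := FF.ne_zero_of_ord_ne_zero v (by rw [hπ]; exact one_ne_zero)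
    have h1 := hdvd π hπ0
    rw [hv π hπ0, hπ, mul_one] at h1
    rw [hv f hf0]
    exact mul_dvd_mul h1 (hf v)
  · push Not at hnt
    rw [hnt f hf0]
    exact dvd_zero _

/-- the main computation at the cusp `g⁻¹ ∞`. -/
theorem eq_one_of_par (M : Model D K F) {m : ℕ} (hm : 0 < m) (f : F) (hf0 : f ≠ 0)
    (hf : DivBy K m f) (w : Mer) (hw0 : w ≠ 0) (hw : w ^ m = M.φ f) (g : SL(2, ℤ)) {d e : ℕ}
    (hN : D.h = d * e) (hγ : g⁻¹ * ModularGroup.T ^ d * g ∈ D.Γ) (ε : ℂ)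
    (hε : cmp (slp (g⁻¹ * ModularGroup.T ^ d * g)) w = ε • w) : ε = 1 := by
  have hN0 : D.h ≠ 0 := NeZero.ne D.h
  have hd0 : d ≠ 0 := by
    rintro rfl
    exact hN0 (by rw [hN, zero_mul])
  have he0 : e ≠ 0 := by
    rintro rfl
    exact hN0 (by rw [hN, mul_zero])
  set u₁ : Mer := cmp (slp g⁻¹) w with hu₁
  have hu₁0 : u₁ ≠ 0 := (map_ne_zero _).mpr hw0
  have h1 : cmp (slp (ModularGroup.T ^ d)) u₁ = ε • u₁ := by
    rw [hu₁, cmp_of_conj hε, map_smul]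
  have hpow : u₁ ^ m = cmp (slp g⁻¹) (M.φ f) := by rw [hu₁, ← map_pow, hw]
  have hinvf : cmp (slp (ModularGroup.T ^ d)) (u₁ ^ m) = u₁ ^ m := by
    rw [hpow]
    exact cmp_of_conj (M.inv ⟨_, hγ⟩ f)
  have hεm : ε ^ m = 1 := by
    rw [map_pow, h1, smul_pow] at hinvf
    exact Char.smul_left_cancel (pow_ne_zero m hu₁0) (hinvf.trans (one_smul _ _).symm)
  have hε0 : ε ≠ 0 := by
    rintro rfl
    rw [zero_pow hm.ne'] at hεm
    exact zero_ne_one hεm
  have : NeZero m := ⟨hm.ne'⟩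
  obtain ⟨s, hs, hsε⟩ := (Complex.isPrimitiveRoot_exp m hm.ne').eq_pow_of_pow_eq_one
    (ξ := ε⁻¹) (by rw [inv_pow, hεm, inv_one])
  have hdC : (d : ℂ) ≠ 0 := by exact_mod_cast hd0
  have heC : (e : ℂ) ≠ 0 := by exact_mod_cast he0
  have hmC : (m : ℂ) ≠ 0 := by exact_mod_cast hm.ne'
  set E : Hol := expHol (2 * Real.pi * Complex.I * s / (d * m)) with hEdef
  have hE : cmpHol (slp (ModularGroup.T ^ d)) E = ε⁻¹ • E := by
    rw [hEdef, cmpHol_T_pow_expHol, ← hsε, ← Complex.exp_nat_mul]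
    congr 2
    field_simp
  have hEm : E ^ m = cuspIncl D.h (Laurent.Tq D.h ^ (s * e)) := by
    rw [hEdef, expHol_pow, ← expHol_eq_Tq]
    congr 1
    rw [hN]
    push_cast
    field_simp
  set u₂ : Mer := u₁ * algebraMap Hol Mer E with hu₂
  have hE0 : algebraMap Hol Mer E ≠ 0 := by
    rw [Ne, map_eq_zero_iff _ (IsFractionRing.injective Hol Mer)]
    intro h
    have := congrFun (congrArg Subtype.val h) UpperHalfPlane.I
    exact Complex.exp_ne_zero _ this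
  have hu₂0 : u₂ ≠ 0 := mul_ne_zero hu₁0 hE0
  have hu₂inv : cmp (slp (ModularGroup.T ^ d)) u₂ = u₂ := by
    rw [hu₂, map_mul, h1, cmp_algebraMap, hE, algebraMap_smul_Hol, smul_mul_smul_comm,
      mul_inv_cancel₀ hε0, one_smul]
  have hu₂N : cmp (slp (ModularGroup.T ^ D.h)) u₂ = u₂ := by
    have h2 : ModularGroup.T ^ d ∈ stab u₂ := hu₂inv
    have h3 := pow_mem h2 e
    rw [← pow_mul, ← hN] at h3
    exact h3
  have hlau₂ : HasLau D.h (u₂ ^ m) (M.cuspHom g f * HahnSeries.single ((s * e : ℕ) : ℤ) 1) := by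
    have h2 := (hasLau_cuspHom M g f).mul (hasLau_of_holCusp D.h (Laurent.Tq D.h ^ (s * e)))
    rw [← hpow, ← hEm, map_pow, ← mul_pow, map_pow, Laurent.laurent_Tq, HahnSeries.single_pow,
      one_pow] at h2
    simpa using h2
  have hmem : u₂ ∈ MerCusp D.h := mem_MerCusp_of_pow hm u₂ hu₂N hlau₂.mem
  have hx := hasLau_lau D.h ⟨u₂, hmem⟩
  set x : LaurentSeries ℂ := lau D.h ⟨u₂, hmem⟩ with hxdef
  have hxm : x ^ m = M.cuspHom g f * HahnSeries.single ((s * e : ℕ) : ℤ) 1 :=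
    (hx.pow m).unique hlau₂
  have hσ0 : M.cuspHom g f ≠ 0 := (map_ne_zero _).mpr hf0
  have hsing : (HahnSeries.single ((s * e : ℕ) : ℤ) (1 : ℂ)) ≠ 0 := by simp
  have hx0 : x ≠ 0 := by
    intro h
    rw [h, zero_pow hm.ne'] at hxm
    exact mul_ne_zero hσ0 hsing hxm.symm
  have hord : (m : ℤ) * x.order = (M.cuspHom g f).order + ((s * e : ℕ) : ℤ) := by
    have h2 := congrArg HahnSeries.order hxm
    rw [HahnSeries.order_pow, HahnSeries.order_mul hσ0 hsing,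
      HahnSeries.order_single one_ne_zero] at h2
    simpa using h2
  obtain ⟨y, hy⟩ := dvd_of_invariant hN hx hu₂inv _ (HahnSeries.coeff_order_eq_zero.not.mpr hx0)
  obtain ⟨z, hz⟩ := dvd_order_cuspHom M g hN hγ m f hf0 hf
  rw [hy, hz] at hord
  have heZ : (e : ℤ) ≠ 0 := by exact_mod_cast he0
  have h3 : (m : ℤ) * y = m * z + s := by
    apply mul_left_cancel₀ heZ
    push_cast at hord
    linear_combination hord
  have h4 : (m : ℤ) ∣ s := ⟨y - z, by linear_combination -h3⟩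
  have h5 : s = 0 := Nat.eq_zero_of_dvd_of_lt (by exact_mod_cast h4) hs
  rw [h5, pow_zero] at hsε
  exact (inv_eq_one.mp hsε.symm)

end GoodPar

open AnD.GoodPar ES.An.GoodPar in
/-- **(K6), parabolic part.** -/
theorem HasChar.par {D : Datum} {m : ℕ} (hm : 0 < m) {f : FB D} (hf0 : f ≠ 0)
    (hf : DivBy Kb m f) {χ : D.Γ →* ℂˣ} (h : HasChar D m f χ)
    (γ : D.Γ)
    (hγ : ((γ : SL(2, ℤ)) : Matrix (Fin 2) (Fin 2) ℤ).trace ^ 2 = 4) : χ γ = 1 := by
  obtain ⟨w, hw0, hw, hχ⟩ := h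
  obtain ⟨δ, n, hn⟩ := Fermat.Agent.S21.exists_conj_T_zpow (γ : SL(2, ℤ)) hγ
  set c : SL(2, ℤ) := δ * ModularGroup.T * δ⁻¹ with hc
  have hconj : ∀ k : ℤ, δ * ModularGroup.T ^ k * δ⁻¹ = c ^ k := fun k => conj_zpow.symm
  rw [hconj] at hn
  have hcn : c ^ n ∈ D.Γ := by
    rcases hn with hn | hn
    · rw [← hn]; exact γ.2
    · have h0 : -(c ^ n) ∈ D.Γ := by rw [← hn]; exact γ.2
      have h1 := mul_mem D.neg_mem h0
      rwa [neg_mul_neg, one_mul] at h1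
  have hcN : c ^ (D.h : ℤ) ∈ D.Γ := by
    rw [← hconj]
    exact D.conj_T_pow_mem δ
  obtain ⟨d, hd⟩ : ∃ d : ℕ, d = Int.gcd n D.h := ⟨_, rfl⟩
  have hbez : (d : ℤ) = n * Int.gcdA n D.h + D.h * Int.gcdB n D.h := by
    rw [hd]; exact Int.gcd_eq_gcd_ab _ _
  have hcd : c ^ (d : ℤ) ∈ D.Γ := by
    rw [hbez, zpow_add, zpow_mul, zpow_mul]
    exact mul_mem (zpow_mem hcn _) (zpow_mem hcN _)
  obtain ⟨e, he⟩ : d ∣ D.h := by
    have : (d : ℤ) ∣ (D.h : ℤ) := by rw [hd]; exact Int.gcd_dvd_right _ _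
    exact_mod_cast this
  obtain ⟨k, hk⟩ : (d : ℤ) ∣ n := by rw [hd]; exact Int.gcd_dvd_left _ _
  have hform : (δ⁻¹)⁻¹ * ModularGroup.T ^ d * δ⁻¹ = c ^ (d : ℤ) := by
    rw [inv_inv, ← hconj, zpow_natCast]
  have hmem : (δ⁻¹)⁻¹ * ModularGroup.T ^ d * δ⁻¹ ∈ D.Γ := by
    rw [hform]; exact hcd
  have h1 : ((χ ⟨_, hmem⟩ : ℂˣ) : ℂ) = 1 :=
    eq_one_of_par (modelB D) hm f hf0 hf w hw0 hw δ⁻¹ he hmem _ (hχ ⟨_, hmem⟩)
  have h2 : c ^ (d : ℤ) ∈ stab w := by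
    rw [mem_stab, ← hform]
    have := hχ ⟨_, hmem⟩
    rw [h1, one_smul] at this
    exact this
  have h3 : c ^ n ∈ stab w := by
    rw [hk, zpow_mul]
    exact zpow_mem h2 k
  have h4 : cmp (slp (γ : SL(2, ℤ))) w = w := by
    rcases hn with hn | hn
    · rw [hn]; exact h3
    · rw [hn, cmp_neg]; exact h3
  have h5 := hχ γ
  rw [h4] at h5
  have h6 : (1 : ℂ) = ((χ γ : ℂˣ) : ℂ) :=
    Char.smul_left_cancel hw0 ((one_smul _ _).trans h5)
  exact Units.ext h6.symm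

end

end Fermat.Agent.S48.AnD
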