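import Fermat.Agent.S48.AnD.Desc
import Fermat.Agent.S48.AnD.Dict
import Fermat.Agent.S48.AnD.EisMer

/-! # ES/An : the exported interface (K1)-(K5) over `ℚ̄`. -/

set_option autoImplicit false

open AlgebraicCurve ModularCurve UpperHalfPlane
open scoped MatrixGroups IntermediateField Manifold ModularForm

namespace Fermat.Agent.S48.AnD

open Fermat.Agent.S24 Fermat.Agent.ES.An

noncomputable section

variable (D : Datum)

/-- `χ` is the character of the `m`-th roots (on `ℍ`) of `f ∈ F_ℚ̄`. -/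
def HasChar (m : ℕ) (f : FB D) (χ : D.Γ →* ℂˣ) : Prop :=
  HasCharC D m (bc D f) χ

variable {D}

/-- (K1) existence. -/
theorem exists_hasChar (m : ℕ) (hm : 0 < m) (f : FB D) (hf0 : f ≠ 0) (hf : DivBy Kb m f) :
    ∃ χ, HasChar D m f χ ∧ χ ^ m = 1 := by
  have hne : toMer D (bc D f) ≠ 0 := by
    rw [Ne, map_eq_zero, map_eq_zero]
    exact hf0
  obtain ⟨w, hw⟩ := exists_root m hm (toMer D (bc D f)) hne
    (fun τ => (modelB D).dvd_ordAt m f hf τ)
  have hw0 : w ≠ 0 := by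
    rintro rfl
    rw [zero_pow hm.ne'] at hw
    exact hne hw.symm
  obtain ⟨χ, hχ, hχm⟩ := exists_isChar_of_pow (D := D) m hm w hw0
    (fun γ => by rw [hw]; exact cmp_toMer D γ _)
  exact ⟨χ, ⟨w, hw0, hw, hχ⟩, hχm⟩

/-- (K1) uniqueness. -/
theorem HasChar.unique {m : ℕ} (hm : 0 < m) {f : FB D} {χ χ' : D.Γ →* ℂˣ}
    (h : HasChar D m f χ) (h' : HasChar D m f χ') : χ = χ' :=
  HasCharC.unique hm h h'

/-- (K2) multiplicativity. -/
theorem HasChar.mul {m : ℕ} {f g : FB D} {χ χ' : D.Γ →* ℂˣ}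
    (h : HasChar D m f χ) (h' : HasChar D m g χ') : HasChar D m (f * g) (χ * χ') := by
  unfold HasChar
  rw [map_mul]
  exact HasCharC.mul h h'

/-- (K2) compatibility between levels. -/
theorem HasChar.of_mul {m m' : ℕ} {f : FB D} {χ : D.Γ →* ℂˣ}
    (h : HasChar D (m * m') f χ) : HasChar D m f (χ ^ m') := by
  obtain ⟨w, hw0, hw, hχ⟩ := h
  exact ⟨w ^ m', pow_ne_zero _ hw0, by rw [← pow_mul, mul_comm m' m, hw], hχ.pow m'⟩

/-- (K3) kernel. -/
theorem hasChar_one_iff {m : ℕ} (hm : 0 < m) {f : FB D} (hf0 : f ≠ 0) :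
    HasChar D m f 1 ↔ ∃ h : FB D, f = h ^ m := by
  constructor
  · intro h
    obtain ⟨g, hg⟩ := HasCharC.exists_root hm h
    exact exists_root_of_bc D m hm f g hg
  · rintro ⟨h, rfl⟩
    have hh : h ≠ 0 := by
      rintro rfl
      exact hf0 (zero_pow hm.ne')
    unfold HasChar
    rw [map_pow]
    exact hasCharC_pow m (bc D h) (by rwa [Ne, map_eq_zero])

/-- (K4) existence of classes with prescribed good character. -/
theorem exists_of_isGood (ψ : D.Γ →* ℂˣ) (hψ : IsGood ψ)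
    (m : ℕ) (hm : 0 < m) (hψm : ψ ^ m = 1) :
    ∃ f : FB D, f ≠ 0 ∧ DivBy Kb m f ∧ HasChar D m f ψ := by
  obtain ⟨w, f, hw0, hc, hcusp, hw⟩ := exists_char_fun D ψ hψ m hm hψm
  have hf0 : f ≠ 0 := by
    rintro rfl
    rw [map_zero] at hw
    exact hw0 (pow_eq_zero_iff hm.ne' |>.mp hw)
  have hfD : DivBy ℂ m f := (modelC D).divBy_of_char m f hf0 w hw ψ hψ hc hcusp
  obtain ⟨f', h, hh0, hf'⟩ := descent m hm f hf0 hfD
  have hf'0 : f' ≠ 0 := by
    rintro rfl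
    rw [map_zero] at hf'
    exact mul_ne_zero hf0 (pow_ne_zero _ hh0) hf'.symm
  set w' : Mer := w * toMer D h with hw'
  have hth0 : toMer D h ≠ 0 := by rwa [Ne, map_eq_zero]
  have hw'0 : w' ≠ 0 := mul_ne_zero hw0 hth0
  have hw'm : w' ^ m = toMer D (bc D f') := by
    rw [hf', map_mul, map_pow, hw', mul_pow, hw]
  have hc' : IsChar w' ψ := by
    have h1 : IsChar (toMer D h) (1 : D.Γ →* ℂˣ) :=
      isChar_one_iff.mpr fun γ => cmp_toMer D γ h
    have h2 := hc.mul h1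
    have h3 : ψ * (1 : D.Γ →* ℂˣ) = ψ := mul_one ψ
    rw [h3] at h2
    exact h2
  have hcusp' : ∀ g : SL(2, ℤ), cmp (slp g) w' ∈ MerCusp D.h := by
    intro g
    rw [hw', map_mul]
    exact mul_mem (hcusp g) (cmp_toMer_mem_MerCusp D g h)
  exact ⟨f', hf'0, (modelB D).divBy_of_char m f' hf'0 w' hw'm ψ hψ hc' hcusp',
    ⟨w', hw'0, hw'm, hc'⟩⟩

/-- finiteness of the Kummer group. -/
theorem finite_classes (m : ℕ) (hm : 0 < m) :
    ∃ S : Finset (FB D), ∀ f : FB D, f ≠ 0 → DivBy Kb m f →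
      ∃ s ∈ S, ∃ h : FB D, h ≠ 0 ∧ f = s * h ^ m := by
  classical
  have hfin := finite_chars (D := D) m hm
  let rep : (D.Γ →* ℂˣ) → FB D := fun χ =>
    if h : ∃ f : FB D, f ≠ 0 ∧ HasChar D m f χ then h.choose else 1
  refine ⟨hfin.toFinset.image rep, fun f hf0 hf => ?_⟩
  obtain ⟨χ, hχ, hχm⟩ := exists_hasChar m hm f hf0 hf
  have hex : ∃ f : FB D, f ≠ 0 ∧ HasChar D m f χ := ⟨f, hf0, hχ⟩
  have hrep : rep χ = hex.choose := dif_pos hex
  obtain ⟨hs0, hs⟩ := hex.choose_spec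
  rw [← hrep] at hs0 hs
  refine ⟨rep χ, Finset.mem_image.mpr ⟨χ, hfin.mem_toFinset.mpr hχm, rfl⟩, ?_⟩
  obtain ⟨k, hk0, hk⟩ := HasCharC.exists_eq_mul_pow hm hs hχ
  have h1 : bc D (f / rep χ) = k ^ m := by
    rw [map_div₀, hk, mul_div_cancel_left₀]
    rwa [Ne, map_eq_zero]
  obtain ⟨h₀, hh₀⟩ := exists_root_of_bc D m hm (f / rep χ) k h1
  refine ⟨h₀, ?_, ?_⟩
  · rintro rfl
    rw [zero_pow hm.ne'] at hh₀
    exact (div_ne_zero hf0 hs0) hh₀
  · rw [← hh₀, mul_div_cancel₀ _ hs0]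

end

end Fermat.Agent.S48.AnD
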