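import Fermat.Agent.S48.AnD.ToMer
import Fermat.Agent.ES.An.SturmDep

/-! # ES/An-SturmDep : more than `[SL₂(ℤ) : Γ₀(N)]` quotients of modular forms are dependent over `ℂ(j)`.

Same argument as `S24/Sturm/Kernel.lean` (`exists_kernel`, `dependence_aux`) with `ModularForm.sturm_bound_Gamma0`:
bring the `v i = A i / B` to a common denominator and weight `k`, look at the `(n+1)(s+1)` modular forms
`E₄^(3a) Δ^(s-a) A i` of weight `k + 12 s`, `a ≤ s`; the Sturm bound
`(k + 12 s) n / 12 + 1 < (n+1)(s+1)` for `s` large gives a nontrivial relation `∑ P i (j) A i = 0`. -/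

set_option autoImplicit false

open AlgebraicCurve ModularCurve UpperHalfPlane
open scoped MatrixGroups IntermediateField Manifold ModularForm

namespace Fermat.Agent.S48.AnD

open Fermat.Agent.S24 Fermat.Agent.ES.An

noncomputable section

variable (D : Datum)

namespace SturmDep

variable {D} in
/-- products of modular forms of arbitrary weights. -/
theorem isMF_prod {ι : Type*} {k : ι → ℤ} {F : ι → ℍ → ℂ} (s : Finset ι)
    (hF : ∀ i ∈ s, IsMF D.Γ (k i) (F i)) :
    IsMF D.Γ (∑ i ∈ s, k i) (∏ i ∈ s, F i) := by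
  classical
  induction s using Finset.induction_on with
  | empty => simpa using IsMF.one
  | insert a s ha ih =>
    rw [Finset.prod_insert ha, Finset.sum_insert ha]
    exact (hF a (Finset.mem_insert_self a s)).mul
      (ih fun i hi => hF i (Finset.mem_insert_of_mem hi))

/-- The `m`-th coefficient as a linear functional. -/
def coeffL (m : ℤ) : HolCusp 1 →ₗ[ℂ] ℂ where
  toFun x := (laurent 1 x).coeff m
  map_add' x y := by simp
  map_smul' a x := by
    simp only [RingHom.id_apply]
    rw [Algebra.smul_def, map_mul, AlgHom.commutes, algebraMap_laurentSeries_eq_single,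
      HahnSeries.coeff_single_mul, sub_zero, smul_eq_mul]

/-- The Sturm bound argument: more than `k n / 12 + 1` modular forms of weight `k` are linearly
dependent over `ℂ`. -/
theorem exists_kernel {A : Type} [Fintype A] (G : A → ℍ → ℂ) (k : ℤ)
    (hG : ∀ α, IsMF D.Γ k (G α))
    (hcard : (k * (D.Γ.index : ℤ)).toNat / 12 + 1 < Fintype.card A) :
    ∃ c : A → ℂ, c ≠ 0 ∧ ∑ α, c α • G α = 0 := by
  classical
  set B := (k * (D.Γ.index : ℤ)).toNat / 12 + 1 with hB
  let G' : A → HolCusp 1 := fun α => ⟨G α, ⟨(hG α).mdiff, (hG α).periodic D.T_mem, 0, by simpa using (hG α).bounded⟩⟩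
  let T : (A → ℂ) →ₗ[ℂ] (Fin B → ℂ) := LinearMap.pi fun m =>
    (coeffL ((m : ℕ) : ℤ)) ∘ₗ (Fintype.linearCombination ℂ G')
  have hker : LinearMap.ker T ≠ ⊥ := by
    apply LinearMap.ker_ne_bot_of_finrank_lt
    simpa using hcard
  obtain ⟨c, hcT, hc0⟩ := (Submodule.ne_bot_iff _).mp hker
  refine ⟨c, hc0, ?_⟩
  have hGc : IsMF D.Γ k (∑ α, c α • G α) := IsMF.sum _ fun α _ => (hG α).smul _
  have hcoe : ((∑ α, c α • G' α : HolCusp 1) : ℍ → ℂ) = ∑ α, c α • G α := by
    rw [AddSubmonoidClass.coe_finsetSum]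
    rfl
  have hcoeff : ∀ m : ℕ, m < B → (laurent 1 (∑ α, c α • G' α)).coeff (m : ℤ) = 0 := by
    intro m hm
    have := congrFun (LinearMap.mem_ker.mp hcT) ⟨m, hm⟩
    simp only [T, LinearMap.pi_apply, LinearMap.comp_apply, Fintype.linearCombination_apply,
      Pi.zero_apply] at this
    exact this
  have hps : laurent 1 (∑ α, c α • G' α)
      = HahnSeries.ofPowerSeries ℤ ℂ (qExpansion 1 (∑ α, c α • G α)) := by
    have := laurent_of_bounded 1 (∑ α, c α • G' α) (by rw [hcoe]; exact hGc.bounded)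
    rw [this, hcoe]
    simp
  obtain ⟨g, hg⟩ := hGc
  have hg0 : g = 0 := by
    apply sturm_bound D.T_mem g
    intro m hm
    rw [hg, ← HahnSeries.ofPowerSeries_apply_coeff (Γ := ℤ), ← hps]
    exact hcoeff m (by omega)
  rw [← hg, hg0]
  rfl

/-- evaluation at a point. -/
def evH (τ : ℍ) : Hol →ₐ[ℂ] ℂ := (Pi.evalAlgHom ℂ (fun _ : ℍ => ℂ) τ).comp Hol.val

theorem evH_apply (τ : ℍ) (f : Hol) : evH τ f = (f : ℍ → ℂ) τ := rfl

theorem eq_zero_of_evH {f : Hol} (h : ∀ τ, evH τ f = 0) : f = 0 :=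
  Subtype.ext (funext h)

theorem dependence_aux (n : ℕ) (hn : n = D.Γ.index)
    (v : Fin (n + 1) → Mer)
    (hv : ∀ i, IsMFr D.Γ (v i)) : ¬ LinearIndependent ℂ⟮jMer⟯ v := by
  classical
  intro hli
  choose k A B hA hB hB0 hvAB using hv
  set K : ℤ := ∑ i, k i with hK
  set A' : Fin (n + 1) → Hol := fun i => A i * ∏ l ∈ Finset.univ.erase i, B l with hA'def
  set BB : Hol := ∏ l, B l with hBB
  have hA' : ∀ i, IsMF D.Γ K ((A' i : Hol) : ℍ → ℂ) := by
    intro i
    have h1 : ((A' i : Hol) : ℍ → ℂ)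
        = (A i : ℍ → ℂ) * ∏ l ∈ Finset.univ.erase i, (B l : ℍ → ℂ) := by
      simp only [hA'def, Subalgebra.coe_mul, SubmonoidClass.coe_finsetProd]
    rw [h1, hK, ← Finset.add_sum_erase Finset.univ k (Finset.mem_univ i)]
    exact (hA i).mul (isMF_prod _ fun l _ => hB l)
  have hBB0 : algebraMap Hol Mer BB ≠ 0 := by
    rw [Ne, IsFractionRing.to_map_eq_zero_iff (K := Mer), hBB]
    exact Finset.prod_ne_zero_iff.mpr fun l _ => hB0 l
  have hBm : ∀ l, algebraMap Hol Mer (B l) ≠ 0 := fun l => by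
    rw [Ne, IsFractionRing.to_map_eq_zero_iff (K := Mer)]
    exact hB0 l
  have hv' : ∀ i, algebraMap Hol Mer (A' i) = v i * algebraMap Hol Mer BB := by
    intro i
    rw [hBB, ← Finset.mul_prod_erase Finset.univ B (Finset.mem_univ i), hA'def, map_mul, map_mul,
      hvAB i]
    field_simp [hBm i]
  set s : ℕ := K.natAbs * n with hs
  set G : Fin (n + 1) × Fin (s + 1) → ℍ → ℂ :=
    fun α => (Sturm.Bd 1 ^ s * jd 1 ^ (α.2 : ℕ)) * ((A' α.1 : Hol) : ℍ → ℂ) with hGdef
  have hG : ∀ α, IsMF D.Γ (12 * s + K) (G α) := fun α =>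
    (isMF_Bd_pow_mul_jd_pow s α.2 (by omega)).mul (hA' α.1)
  have hnpos : 0 < n := Nat.pos_of_ne_zero (by
    rw [hn]; exact Subgroup.FiniteIndex.index_ne_zero)
  obtain ⟨c, hc0, hc⟩ := exists_kernel D G (12 * s + K) hG (by
    simp only [Fintype.card_prod, Fintype.card_fin, ← hn]
    have h1 : ((12 * (s : ℤ) + K) * (n : ℤ)).toNat ≤ 12 * (s * n) + 12 * (K.natAbs * n) := by
      rw [Int.toNat_le]
      push_cast
      have : K ≤ |K| := le_abs_self K
      have h0 : (0 : ℤ) ≤ |K| := abs_nonneg K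
      nlinarith [mul_le_mul_of_nonneg_right this (Int.natCast_nonneg n),
        mul_nonneg h0 (Int.natCast_nonneg n)]
    have h2 : ((12 * (s : ℤ) + K) * (n : ℤ)).toNat / 12 ≤ s * n + K.natAbs * n := by
      calc _ ≤ (12 * (s * n) + 12 * (K.natAbs * n)) / 12 := Nat.div_le_div_right h1
        _ = s * n + K.natAbs * n := by
          rw [← Nat.mul_add, Nat.mul_div_cancel_left _ (by norm_num)]
    have h3 : (n + 1) * (s + 1) = s * n + s + n + 1 := by ring
    rw [h3]
    omega)
  set P : Fin (n + 1) → Polynomial ℂ :=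
    fun i => ∑ e : Fin (s + 1), Polynomial.C (c (i, e)) * Polynomial.X ^ (e : ℕ) with hP
  have hP0 : P ≠ 0 := by
    intro h
    apply hc0
    funext ⟨i, e⟩
    have h1 := congrArg (fun a => (a i).coeff (e : ℕ)) h
    simp only [hP, Polynomial.finsetSum_coeff, Polynomial.coeff_C_mul, Polynomial.coeff_X_pow,
      Pi.zero_apply, Polynomial.coeff_zero] at h1
    rw [Finset.sum_eq_single e] at h1
    · simpa using h1
    · intro b _ hb
      have : (e : ℕ) ≠ (b : ℕ) := fun h => hb (Fin.ext h.symm)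
      simp [this]
    · intro h; exact absurd (Finset.mem_univ e) h
  have hrelH : ∑ i, Polynomial.aeval (jdHol 1) (P i) * A' i = 0 := by
    apply eq_zero_of_evH
    intro τ
    have h1 := congrFun hc τ
    rw [Fintype.sum_prod_type] at h1
    simp only [Finset.sum_apply, Pi.smul_apply, hGdef, Pi.mul_apply, Pi.pow_apply, smul_eq_mul,
      Pi.zero_apply] at h1
    have h2 : Sturm.Bd 1 τ ^ s * evH τ (∑ i, Polynomial.aeval (jdHol 1) (P i) * A' i) = 0 := by
      rw [← h1, map_sum, Finset.mul_sum]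
      refine Finset.sum_congr rfl fun i _ => ?_
      rw [map_mul, ← Polynomial.aeval_algHom_apply, hP]
      simp only [map_sum, map_mul, map_pow, Polynomial.aeval_C, Polynomial.aeval_X]
      rw [Finset.sum_mul, Finset.mul_sum]
      refine Finset.sum_congr rfl fun e _ => ?_
      rw [evH_apply, evH_apply]
      simp only [jdHol, Algebra.algebraMap_self, RingHom.id_apply]
      ring
    exact (mul_eq_zero.mp h2).resolve_left (pow_ne_zero _ (Sturm.Bd_ne_zero 1 τ))
  have hrelM : ∑ i, Polynomial.aeval jMer (P i) * v i = 0 := by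
    have h1 := congrArg (algebraMap Hol Mer) hrelH
    rw [map_zero, map_sum] at h1
    have : (∑ i, Polynomial.aeval jMer (P i) * v i) * algebraMap Hol Mer BB = 0 := by
      rw [Finset.sum_mul, ← h1]
      refine Finset.sum_congr rfl fun i _ => ?_
      rw [map_mul, hv' i, mul_assoc, ← Polynomial.aeval_algebraMap_apply]
      rfl
    exact (mul_eq_zero.mp this).resolve_right hBB0
  rw [Fintype.linearIndependent_iff] at hli
  have h0 := hli (fun i => Polynomial.aeval (IntermediateField.AdjoinSimple.gen ℂ jMer) (P i)) (by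
    rw [← hrelM]
    refine Finset.sum_congr rfl fun i _ => ?_
    rw [Algebra.smul_def]
    congr 1
    exact IntermediateField.AdjoinSimple.coe_aeval_gen_apply _ _ _)
  apply hP0
  funext i
  have h1 : Polynomial.aeval jMer (P i) = 0 := by
    rw [← IntermediateField.AdjoinSimple.coe_aeval_gen_apply, h0 i]
    rfl
  exact (transcendental_iff.mp ES.An.SturmDep.transcendental_jMer) _ h1

end SturmDep

theorem isMFr_dependence (v : Fin (D.Γ.index + 1) → Mer)
    (hv : ∀ i, IsMFr D.Γ (v i)) : ¬ LinearIndependent ℂ⟮jMer⟯ v :=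
  SturmDep.dependence_aux D _ rfl v hv

end

end Fermat.Agent.S48.AnD
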