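import Fermat.Agent.S48.AnD.MF
import Fermat.Agent.ES.An.ToMer
import Fermat.Agent.ES.An.EisMer

/-! # S48/AnD-ToMer : the embedding `toMer D : FC D →ₐ[ℂ] Mer` (port of `ES/An/ToMer`). -/

set_option autoImplicit false

open AlgebraicCurve ModularCurve UpperHalfPlane
open scoped MatrixGroups IntermediateField Manifold ModularForm

namespace Fermat.Agent.S48.AnD

open Fermat.Agent.S24 Fermat.Agent.ES.An

noncomputable section

namespace IsMFr

variable {Γ : Subgroup SL(2, ℤ)}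

theorem const (c : ℂ) : IsMFr Γ (algebraMap ℂ Mer c) := by
  refine ⟨0, algebraMap ℂ Hol c, 1, ?_, IsMF.one, one_ne_zero, ?_⟩
  · have h := (IsMF.one (Γ := Γ)).smul c
    convert h using 1
    funext τ
    simp [Algebra.algebraMap_eq_smul_one]
  · rw [map_one, div_one, ← IsScalarTower.algebraMap_apply]

theorem add {u v : Mer} (hu : IsMFr Γ u) (hv : IsMFr Γ v) : IsMFr Γ (u + v) := by
  obtain ⟨k, A, B, hA, hB, hB0, rfl⟩ := hu
  obtain ⟨k', A', B', hA', hB', hB0', rfl⟩ := hv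
  have i := IsFractionRing.injective Hol Mer
  refine ⟨k + k', A * B' + B * A', B * B', (hA.mul hB').add (hB.mul hA'), hB.mul hB',
    mul_ne_zero hB0 hB0', ?_⟩
  rw [map_add, map_mul, map_mul, map_mul,
    div_add_div _ _ ((map_ne_zero_iff _ i).mpr hB0) ((map_ne_zero_iff _ i).mpr hB0')]

theorem mul {u v : Mer} (hu : IsMFr Γ u) (hv : IsMFr Γ v) : IsMFr Γ (u * v) := by
  obtain ⟨k, A, B, hA, hB, hB0, rfl⟩ := hu
  obtain ⟨k', A', B', hA', hB', hB0', rfl⟩ := hv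
  refine ⟨k + k', A * A', B * B', hA.mul hA', hB.mul hB', mul_ne_zero hB0 hB0', ?_⟩
  rw [map_mul, map_mul, div_mul_div_comm]

theorem inv {u : Mer} (hu : IsMFr Γ u) : IsMFr Γ u⁻¹ := by
  obtain ⟨k, A, B, hA, hB, hB0, rfl⟩ := hu
  by_cases hA0 : A = 0
  · refine ⟨k, A, B, hA, hB, hB0, ?_⟩
    rw [hA0, map_zero, zero_div, inv_zero]
  · exact ⟨k, B, A, hB, hA, hA0, by rw [inv_div]⟩

/-- invariance under `Γ`. -/
theorem cmp_eq {u : Mer} (hu : IsMFr Γ u) (γ : Γ) : cmp (slp (γ : SL(2, ℤ))) u = u := by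
  obtain ⟨k, A, B, hA, hB, hB0, rfl⟩ := hu
  rw [cmp_div_eq k (γ : SL(2, ℤ)) A B hB0]
  have h1 : slHol k (γ : SL(2, ℤ)) A = A := Subtype.ext (IsMF_slash_eq hA γ)
  have h2 : slHol k (γ : SL(2, ℤ)) B = B := Subtype.ext (IsMF_slash_eq hB γ)
  rw [h1, h2]

end IsMFr

theorem isGood_one (Γ : Subgroup SL(2, ℤ)) : IsGood (1 : Γ →* ℂˣ) :=
  ⟨fun _ => by simp, fun _ _ => rfl⟩

variable (D : Datum)

/-- all `SL₂(ℤ)`-translates of a twisted form are in `HolCusp D.h`. -/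
theorem slash_mem_HolCusp (ψ : D.Γ →* ℂˣ) (hψ : IsGood ψ) (k : ℤ) (E : Hol)
    (hsl : ∀ γ : D.Γ,
      ((E : ℍ → ℂ) ∣[k] (γ : SL(2, ℤ))) = ((ψ γ : ℂˣ) : ℂ) • (E : ℍ → ℂ))
    (hb : ∀ g : SL(2, ℤ), IsBoundedAtImInfty ((E : ℍ → ℂ) ∣[k] g)) (g : SL(2, ℤ)) :
    ((E : ℍ → ℂ) ∣[k] g) ∈ HolCusp D.h := by
  refine ⟨mdiff_slash E.2 k g, periodic_of_vadd _ _ fun τ => ?_, 0, ?_⟩
  · set γ' : D.Γ := ⟨_, D.conj_T_pow_mem g⟩ with hγ'
    have h1 : ψ γ' = 1 := hψ.2 γ' (by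
      rw [hγ']
      show |((g * ModularGroup.T ^ (D.h : ℤ) * g⁻¹ : SL(2, ℤ)) : Matrix (Fin 2) (Fin 2) ℤ).trace| ≤ 2
      rw [trace_conj_T_pow]
      norm_num)
    have h2 : ((E : ℍ → ℂ) ∣[k] g) ∣[k] (ModularGroup.T ^ (D.h : ℤ)) = (E : ℍ → ℂ) ∣[k] g := by
      rw [← SlashAction.slash_mul]
      have h3 : g * ModularGroup.T ^ (D.h : ℤ) = (γ' : SL(2, ℤ)) * g := by
        rw [hγ']
        group
      rw [h3, SlashAction.slash_mul, hsl γ', h1]
      simp
    have h4 := congrFun h2 τ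
    rw [ModularForm.SL_slash_apply, modular_T_zpow_smul] at h4
    have h5 : denom (ModularGroup.T ^ (D.h : ℤ) : SL(2, ℤ)) τ = 1 := by
      have e10 : (ModularGroup.T ^ (D.h : ℤ) : SL(2, ℤ)) 1 0 = 0 := by
        show (ModularGroup.T ^ (D.h : ℤ) : SL(2, ℤ)).1 1 0 = 0
        rw [ModularGroup.coe_T_zpow]; rfl
      have e11 : (ModularGroup.T ^ (D.h : ℤ) : SL(2, ℤ)) 1 1 = 1 := by
        show (ModularGroup.T ^ (D.h : ℤ) : SL(2, ℤ)).1 1 1 = 1
        rw [ModularGroup.coe_T_zpow]; rfl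
      rw [ModularGroup.denom_apply, e10, e11]
      simp
    rw [h5, one_zpow, mul_one] at h4
    simpa using h4
  · simpa using hb g

theorem IsMF.slash_mem_HolCusp {k : ℤ} {A : Hol} (hA : IsMF D.Γ k (A : ℍ → ℂ)) (g : SL(2, ℤ)) :
    ((A : ℍ → ℂ) ∣[k] g) ∈ HolCusp D.h :=
  AnD.slash_mem_HolCusp D 1 (isGood_one _) k A (fun γ => by rw [IsMF_slash_eq hA γ]; simp)
    (IsMF_bdd_slash hA) g

/-- quotients of modular forms are meromorphic at all cusps. -/
theorem IsMFr.cmp_mem_MerCusp {u : Mer} (hu : IsMFr D.Γ u) (g : SL(2, ℤ)) :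
    cmp (slp g) u ∈ MerCusp D.h := by
  obtain ⟨k, A, B, hA, hB, hB0, rfl⟩ := hu
  rw [cmp_div_eq k g A B hB0, mem_MerCusp_iff]
  refine ⟨⟨_, hA.slash_mem_HolCusp D g⟩, ⟨_, hB.slash_mem_HolCusp D g⟩, ?_, rfl⟩
  intro h
  have h' : ((B : ℍ → ℂ) ∣[k] g) = 0 := congrArg Subtype.val h
  exact slHol_ne_zero k g hB0 (Subtype.ext h')

theorem EC_le_fieldRange : D.EC ≤ (lauC 1).fieldRange := by
  unfold Datum.EC
  rw [IntermediateField.adjoin_le_iff]
  rintro _ ⟨x, hx, rfl⟩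
  obtain ⟨u, ⟨v, -, hl⟩, -⟩ := D.an x hx
  exact ⟨v, hl⟩

/-- Induction principle for `FC D`. -/
theorem FC_induction {P : FC D → Prop} (hj : ∀ x : D.S, P (genC D x))
    (hc : ∀ c : ℂ, P (algebraMap ℂ (FC D) c)) (hadd : ∀ f g, P f → P g → P (f + g))
    (hmul : ∀ f g, P f → P g → P (f * g)) (hinv : ∀ f, P f → P f⁻¹) (f : FC D) : P f := by
  obtain ⟨f, hf⟩ := f
  induction hf using IntermediateField.adjoin_induction with
  | mem y hy =>
    obtain ⟨x, hx, rfl⟩ := hy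
    exact hj ⟨x, hx⟩
  | algebraMap c => exact hc c
  | add x y hx hy ihx ihy => exact hadd ⟨x, hx⟩ ⟨y, hy⟩ ihx ihy
  | inv x hx ih => exact hinv ⟨x, hx⟩ ih
  | mul x y hx hy ihx ihy => exact hmul ⟨x, hx⟩ ⟨y, hy⟩ ihx ihy

/-- Induction principle for `FB D`. -/
theorem FB_induction {P : FB D → Prop} (hj : ∀ x : D.S, P (genB D x))
    (hc : ∀ c : Kb, P (algebraMap Kb (FB D) c)) (hadd : ∀ f g, P f → P g → P (f + g))
    (hmul : ∀ f g, P f → P g → P (f * g)) (hinv : ∀ f, P f → P f⁻¹) (f : FB D) : P f := by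
  obtain ⟨f, hf⟩ := f
  induction hf using IntermediateField.adjoin_induction with
  | mem y hy => exact hj ⟨y, hy⟩
  | algebraMap c => exact hc c
  | add x y hx hy ihx ihy => exact hadd ⟨x, hx⟩ ⟨y, hy⟩ ihx ihy
  | inv x hx ih => exact hinv ⟨x, hx⟩ ih
  | mul x y hx hy ihx ihy => exact hmul ⟨x, hx⟩ ⟨y, hy⟩ ihx ihy

/-- existence of the embedding, together with the `q`-expansion principle. -/
theorem exists_toMer : ∃ φ : FC D →ₐ[ℂ] Mer, ∀ f : FC D, HasLau 1 (φ f) (f : LaurentSeries ℂ) := by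
  refine ⟨(cuspToMer 1).comp ((AlgEquiv.ofInjectiveField (lauC 1)).symm.toAlgHom.comp
    (IntermediateField.inclusion (EC_le_fieldRange D))), fun f => ?_⟩
  refine ⟨(AlgEquiv.ofInjectiveField (lauC 1)).symm
    (IntermediateField.inclusion (EC_le_fieldRange D) f), rfl, ?_⟩
  have h := (AlgEquiv.ofInjectiveField (lauC 1)).apply_symm_apply
    (IntermediateField.inclusion (EC_le_fieldRange D) f)
  exact congrArg Subtype.val h

/-- The embedding of the function field over `ℂ` into the meromorphic functions. -/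
def toMer : FC D →ₐ[ℂ] Mer := (exists_toMer D).choose

theorem hasLau_toMer (f : FC D) : HasLau 1 (toMer D f) (f : LaurentSeries ℂ) :=
  (exists_toMer D).choose_spec f

theorem toMer_genC (x : D.S) (u : Mer) (hu : HasLau 1 u (coeffMap iotaC x.1)) :
    toMer D (genC D x) = u :=
  (hasLau_toMer D (genC D x)).eq_of_eq hu

theorem toMer_jC : toMer D (jC D) = jMer :=
  toMer_genC D ⟨jSer 1, D.j_mem⟩ _ (by
    rw [ToMerAux.coeffMap_iotaC_jSer]
    exact ToMerAux.hasLau_jdMer 1)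

theorem toMer_injective : Function.Injective (toMer D) := (toMer D).toRingHom.injective

theorem algHom_ext_FC {M : Type*} [Field M] [Algebra ℂ M] (σ τ : FC D →ₐ[ℂ] M)
    (h : ∀ x : D.S, σ (genC D x) = τ (genC D x)) : σ = τ := by
  ext f
  induction f using FC_induction D with
  | hj d => exact h d
  | hc c => rw [AlgHom.commutes, AlgHom.commutes]
  | hadd f g hf hg => rw [map_add, map_add, hf, hg]
  | hmul f g hf hg => rw [map_mul, map_mul, hf, hg]
  | hinv f hf => rw [map_inv₀, map_inv₀, hf]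

theorem transcendental_jC : Transcendental ℂ (jC D) := by
  have h1 : Transcendental ℂ (ES.An.jC 1) := ES.An.transcendental_jC 1
  have h2 : Transcendental ℂ ((ES.An.jC 1 : ES.An.FC 1) : LaurentSeries ℂ) := by
    have := (transcendental_algebraMap_iff (R := ℂ) (S := ES.An.FC 1) (A := LaurentSeries ℂ)
      (a := ES.An.jC 1) (FaithfulSMul.algebraMap_injective _ _)).mpr h1
    exact this
  have h3 : ((ES.An.jC 1 : ES.An.FC 1) : LaurentSeries ℂ) = ((jC D : FC D) : LaurentSeries ℂ) :=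
    (ToMerAux.coeffMap_iotaC_jSer 1).symm
  rw [h3] at h2
  exact (transcendental_algebraMap_iff (R := ℂ) (S := FC D) (A := LaurentSeries ℂ)
      (a := jC D) (FaithfulSMul.algebraMap_injective _ _)).mp h2

theorem isMFr_toMer (f : FC D) : IsMFr D.Γ (toMer D f) := by
  induction f using FC_induction D with
  | hj x =>
    obtain ⟨u, hu, hm⟩ := D.an x.1 x.2
    rw [toMer_genC D x u hu]
    exact hm
  | hc c => rw [AlgHom.commutes]; exact IsMFr.const c
  | hadd f g hf hg => rw [map_add]; exact hf.add hg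
  | hmul f g hf hg => rw [map_mul]; exact hf.mul hg
  | hinv f hf => rw [map_inv₀]; exact hf.inv

/-- invariance under `Γ`. -/
theorem cmp_toMer (γ : D.Γ) (f : FC D) :
    cmp (slp (γ : SL(2, ℤ))) (toMer D f) = toMer D f :=
  (isMFr_toMer D f).cmp_eq γ

theorem mem_of_cmp (g : SL(2, ℤ)) (h : ∀ f : FC D, cmp (slp g) (toMer D f) = toMer D f) :
    g ∈ D.Γ :=
  D.sep g fun x hx u hu => by
    rw [← toMer_genC D ⟨x, hx⟩ u hu]
    exact h _

theorem cmp_toMer_mem_MerCusp (g : SL(2, ℤ)) (f : FC D) :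
    cmp (slp g) (toMer D f) ∈ MerCusp D.h :=
  (isMFr_toMer D f).cmp_mem_MerCusp D g

end

end Fermat.Agent.S48.AnD
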